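/-
Torsion subgroups of `JZero N`: basic algebra (no analysis).
-/
import Fermat.Prelude.Def_ModularCurve_HeckeModule
import Fermat.Agent.ParHom.Gamma0

set_option autoImplicit false

noncomputable section

namespace Fermat.Agent.Torsion

open AlgebraicCurve ModularCurve CongruenceSubgroup

variable (N : ℕ)

theorem coe_subtype_codRestrict {G : Type*} [AddGroup G] (S T : AddSubgroup G)
    (h : ∀ x : S, (x : G) ∈ T) (x : S) : ((S.subtype.codRestrict T h x : T) : G) = x := rfl

theorem nsmul_nsmul_eq_zero {G : Type*} [AddMonoid G] {x : G} {n m : ℕ} (h : (n * m) • x = 0) :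
    n • (m • x) = 0 := by
  rw [← mul_nsmul', h]

theorem mul_nsmul_eq_zero {G : Type*} [AddMonoid G] {x : G} {n : ℕ} (m : ℕ) (h : n • x = 0) :
    (n * m) • x = 0 := by
  rw [mul_nsmul, h, nsmul_zero]

/-- The `n`-torsion subgroup of the points of the modular Jacobian over `ℚ̄`. -/
abbrev jTorsion (n : ℕ) : AddSubgroup (JZero N) :=
  Pic0.torsion (AlgebraicClosure ℚ) (modularFunctionFieldBar N) n

/-- Parabolic-elliptic characters of `Γ₀(N)` with values in `ZMod n`. -/
abbrev CharMod (n : ℕ) : Type :=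
  ParHom.parEllHoms (Gamma0 N) ℤ (ZMod n)

variable {N}

theorem mem_jTorsion {n : ℕ} {x : JZero N} : x ∈ jTorsion N n ↔ n • x = 0 := by
  rw [Pic0.mem_torsion, natCast_zsmul]

/-- Every endomorphism of `JZero N` preserves the torsion subgroups. -/
theorem map_mem_jTorsion {n : ℕ} (φ : JZero N →+ JZero N) {x : JZero N}
    (hx : x ∈ jTorsion N n) : φ x ∈ jTorsion N n := by
  rw [mem_jTorsion] at hx ⊢
  rw [← map_nsmul, hx, map_zero]

variable (N) in
/-- The restriction of a Hecke operator to the `n`-torsion. -/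
def heckeTors [NeZero N] (n : ℕ) (ℓ : Nat.Primes) : AddMonoid.End (jTorsion N n) :=
  (((heckeOperatorBar N ℓ).toAddMonoidHom).comp (jTorsion N n).subtype).codRestrict _
    fun x => map_mem_jTorsion (heckeOperatorBar N ℓ).toAddMonoidHom x.2

@[simp]
theorem coe_heckeTors [NeZero N] (n : ℕ) (ℓ : Nat.Primes) (x : jTorsion N n) :
    (heckeTors N n ℓ x : JZero N) = heckeOperatorBar N ℓ (x : JZero N) :=
  rfl

/-- Multiplication by `m`, from the `n * m`-torsion to the `n`-torsion. -/
def torsMul (n m : ℕ) : jTorsion N (n * m) →+ jTorsion N n :=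
  ((nsmulAddMonoidHom (α := JZero N) m).comp (jTorsion N (n * m)).subtype).codRestrict _
    fun x => mem_jTorsion.2 (nsmul_nsmul_eq_zero (mem_jTorsion.1 x.2))

@[simp]
theorem coe_torsMul (n m : ℕ) (x : jTorsion N (n * m)) :
    (torsMul n m x : JZero N) = m • (x : JZero N) :=
  rfl

/-- The inclusion of the `n`-torsion in the `n * m`-torsion. -/
def torsIncl (n m : ℕ) : jTorsion N n →+ jTorsion N (n * m) :=
  (jTorsion N n).subtype.codRestrict _ fun x =>
    mem_jTorsion.2 (mul_nsmul_eq_zero m (mem_jTorsion.1 x.2))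

@[simp]
theorem coe_torsIncl (n m : ℕ) (x : jTorsion N n) :
    (torsIncl n m x : JZero N) = (x : JZero N) :=
  coe_subtype_codRestrict (jTorsion N n) (jTorsion N (n * m)) _ x

end Fermat.Agent.Torsion
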