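/-
The character of a torsion class of `JZero N`: the multiplier of an `n`th root of a function `f`
with `n • D = div f`.
-/
import Fermat.Agent.ModFun.Field
import Fermat.Agent.Multiplier.Root
import Fermat.Agent.Torsion.Basic
import Fermat.Agent.Galois.QbarInstances
import Mathlib.NumberTheory.LegendreSymbol.AddCharacter
import Mathlib.Analysis.SpecialFunctions.Complex.CircleAddChar

set_option autoImplicit false

noncomputable section

namespace Fermat.Agent.Torsion

open AlgebraicCurve ModularCurve CongruenceSubgroup UpperHalfPlane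
open scoped MatrixGroups

/-- A fixed embedding of `ℚ̄` in `ℂ`. -/
def qbarToC : AlgebraicClosure ℚ →+* ℂ :=
  (IsAlgClosed.lift : AlgebraicClosure ℚ →ₐ[ℚ] ℂ).toRingHom

variable {N : ℕ}

/-- The meromorphic function on `ℂ` (relevant on the upper half plane) of a function on `X₀(N)`
defined over `ℚ̄`. -/
def evBar [NeZero N] (f : modularFunctionFieldBar N) : ℂ → ℂ :=
  ModFun.toFun (ModFun.barToC N qbarToC f) ∘ ofComplex

/-- The multiplicative character `γ ↦ exp (2 π i φ γ / n)`. -/
def charUnits (n : ℕ) [NeZero n] (φ : Additive (Gamma0 N) →+ ZMod n) : Gamma0 N →* ℂˣ :=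
  MonoidHom.toHomUnits
    { toFun := fun γ => ZMod.stdAddChar (φ (Additive.ofMul γ))
      map_one' := by simp
      map_mul' := fun γ δ => by rw [ofMul_mul, map_add, AddChar.map_add_eq_mul] }

@[simp]
theorem coe_charUnits (n : ℕ) [NeZero n] (φ : Additive (Gamma0 N) →+ ZMod n) (γ : Gamma0 N) :
    (charUnits n φ γ : ℂ) = ZMod.stdAddChar (φ (Additive.ofMul γ)) :=
  rfl

/-- `φ` is the character of the torsion class `x`: for some `D` in the class and some `f` with
`n • D = div f`, an `n`th root of `f` on the upper half plane has multiplier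
`γ ↦ exp (2 π i φ γ / n)`. -/
def IsTorsionChar [NeZero N] (n : ℕ) [NeZero n] (x : JZero N)
    (φ : Additive (Gamma0 N) →+ ZMod n) : Prop :=
  ∃ (D : Divisor.degZero (K := AlgebraicClosure ℚ) (F := modularFunctionFieldBar N))
    (f : modularFunctionFieldBar N) (g : ℂ → ℂ),
    Pic0.mk D = x ∧ f ≠ 0 ∧
      (∀ v, (n : ℤ) * (D : Divisor (AlgebraicClosure ℚ) (modularFunctionFieldBar N)) v = v.ord f) ∧
      Multiplier.IsRoot n (evBar f) g ∧
      Multiplier.IsEquivariant (Gamma0 N) (charUnits n φ) g

end Fermat.Agent.Torsion
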