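/-
Roots of unity as values of `ZMod.stdAddChar`, and manipulation of multipliers through
punctured neighbourhoods.
-/
import Fermat.Agent.Torsion.Char

set_option autoImplicit false

noncomputable section

namespace Fermat.Agent.Torsion

open CongruenceSubgroup UpperHalfPlane Filter
open scoped MatrixGroups Topology

variable {N n : ℕ}

theorem exists_stdAddChar_eq [NeZero n] {c : ℂ} (hc : c ^ n = 1) :
    ∃ k : ZMod n, ZMod.stdAddChar k = c := by
  obtain ⟨i, -, hi⟩ := (Complex.isPrimitiveRoot_exp n (NeZero.ne n)).eq_pow_of_pow_eq_one hc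
  refine ⟨((i : ℤ) : ZMod n), ?_⟩
  rw [ZMod.stdAddChar_coe, ← hi, ← Complex.exp_nat_mul]
  congr 1
  push_cast
  ring

/-- A character with values in the `n`th roots of unity is a `charUnits`. -/
theorem exists_charUnits_eq [NeZero n] (χ : Gamma0 N →* ℂˣ) (hχ : ∀ γ, χ γ ^ n = 1) :
    ∃ φ : Additive (Gamma0 N) →+ ZMod n, charUnits n φ = χ := by
  have hk : ∀ γ, ∃ k : ZMod n, ZMod.stdAddChar k = (χ γ : ℂ) := fun γ =>
    exists_stdAddChar_eq (by rw [← Units.val_pow_eq_pow_val, hχ, Units.val_one])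
  choose k hk using hk
  let φ : Additive (Gamma0 N) →+ ZMod n :=
    { toFun := fun a => k (Additive.toMul a)
      map_zero' := ZMod.injective_stdAddChar (by rw [toMul_zero, hk, map_one]; simp)
      map_add' := fun a b => ZMod.injective_stdAddChar (by
        rw [toMul_add, hk, map_mul, AddChar.map_add_eq_mul, hk, hk, Units.val_mul]) }
  exact ⟨φ, MonoidHom.ext fun γ => Units.ext (hk γ)⟩

theorem charUnits_injective [NeZero n] :
    Function.Injective (charUnits (N := N) n) := fun φ ψ h => by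
  refine AddMonoidHom.ext fun a => ZMod.injective_stdAddChar ?_
  have := congrArg Units.val (DFunLike.congr_fun h (Additive.toMul a))
  simpa using this

theorem charUnits_pow [NeZero n] (φ : Additive (Gamma0 N) →+ ZMod n) (γ : Gamma0 N) :
    charUnits n φ γ ^ n = 1 := by
  refine Units.ext ?_
  rw [Units.val_pow_eq_pow_val, coe_charUnits, ← AddChar.map_nsmul_eq_pow, nsmul_eq_mul,
    ZMod.natCast_self, zero_mul, AddChar.map_zero_eq_one, Units.val_one]

theorem charUnits_zero [NeZero n] : charUnits (N := N) n 0 = 1 :=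
  MonoidHom.ext fun γ => Units.ext (by simp)

theorem charUnits_add [NeZero n] (φ ψ : Additive (Gamma0 N) →+ ZMod n) :
    charUnits n (φ + ψ) = charUnits n φ * charUnits n ψ :=
  MonoidHom.ext fun γ => Units.ext (by simp [AddChar.map_add_eq_mul])

theorem charUnits_eq_one_iff [NeZero n] (φ : Additive (Gamma0 N) →+ ZMod n) (γ : Gamma0 N) :
    charUnits n φ γ = 1 ↔ φ (Additive.ofMul γ) = 0 := by
  rw [← Units.val_inj, coe_charUnits, Units.val_one,
    ← AddChar.map_zero_eq_one (ZMod.stdAddChar : AddChar (ZMod n) ℂ),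
    ZMod.injective_stdAddChar.eq_iff]

open Multiplier in
/-- A meromorphic function with the right `n`th power gives a root after passing to normal
form. -/
theorem isRoot_toMeromorphicNFOn (hn : 0 < n) {f G : ℂ → ℂ} (hG : MeromorphicOn G H)
    (hpow : ∀ z ∈ H, G ^ n =ᶠ[𝓝[≠] z] f) (hne : ∀ z ∈ H, meromorphicOrderAt f z ≠ ⊤) :
    IsRoot n f (toMeromorphicNFOn G H) ∧
      ∀ z ∈ H, toMeromorphicNFOn G H =ᶠ[𝓝[≠] z] G := by
  have heq : ∀ z ∈ H, toMeromorphicNFOn G H =ᶠ[𝓝[≠] z] G := fun z hz =>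
    hG.toMeromorphicNFOn_eq_self_on_nhdsNE hz
  refine ⟨⟨meromorphicNFOn_toMeromorphicNFOn G H, fun z hz => ?_, fun z hz htop => ?_⟩, heq⟩
  · filter_upwards [heq z hz, hpow z hz] with w h1 h2
    simp only [Pi.pow_apply] at h2 ⊢
    rw [h1, h2]
  · refine hne z hz ?_
    rw [← meromorphicOrderAt_congr (hpow z hz), meromorphicOrderAt_pow (hG z hz),
      ← meromorphicOrderAt_congr (heq z hz), htop, WithTop.mul_top]
    exact_mod_cast hn.ne'

open Multiplier in
/-- The multiplier is determined by the transformation law of any function agreeing with the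
root on punctured neighbourhoods. -/
theorem multiplier_eq_of_eventuallyEq {Γ : Subgroup SL(2, ℤ)} {χ χ' : Γ →* ℂˣ} {f g h : ℂ → ℂ}
    (hg : IsRoot n f g) (he : IsEquivariant Γ χ g) (hgh : ∀ z ∈ H, g =ᶠ[𝓝[≠] z] h)
    (hh : ∀ γ : Γ, h ∘ act (γ : SL(2, ℤ)) =ᶠ[𝓝[≠] Complex.I] fun z => (χ' γ : ℂ) * h z) :
    χ = χ' := by
  refine MonoidHom.ext fun γ => Units.ext ?_
  have h1 : g ∘ act (γ : SL(2, ℤ)) =ᶠ[𝓝[≠] Complex.I] h ∘ act (γ : SL(2, ℤ)) :=
    (tendsto_act_nhdsNE _ I_mem_H).eventually (hgh _ (act_mem I_mem_H))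
  obtain ⟨w, hw1, hw2, hw3, hwH, hw0, -⟩ :=
    (h1.and ((hh γ).and ((hgh _ I_mem_H).and (hg.eventually_good I_mem_H)))).exists
  simp only [Function.comp_apply] at hw1 hw2
  refine mul_right_cancel₀ hw0 ?_
  rw [← he γ w hwH, hw1, hw2, hw3]

open Multiplier in
/-- If `h` transforms by `χ'` and has the same `n`th power as a root `g` transforming by `χ`,
then `χ = χ'`. -/
theorem multiplier_eq_of_pow_eq (hn : 0 < n) {Γ : Subgroup SL(2, ℤ)} {χ χ' : Γ →* ℂˣ}
    {f g h : ℂ → ℂ} (hg : IsRoot n f g) (he : IsEquivariant Γ χ g) (hh : MeromorphicOn h H)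
    (hpow : ∀ z ∈ H, h ^ n =ᶠ[𝓝[≠] z] f) (heh : IsEquivariant Γ χ' h) : χ = χ' := by
  obtain ⟨hroot, heq⟩ := isRoot_toMeromorphicNFOn hn hh hpow fun z hz => by
    obtain ⟨k, -, hk⟩ := hg.meromorphicOrderAt_eq hz
    rw [hk]
    exact WithTop.coe_ne_top
  obtain ⟨ζ, -, hζ⟩ := hroot.unique hn hg
  refine multiplier_eq_of_eventuallyEq hg he (h := fun z => ζ * h z) (fun z hz => ?_) fun γ => ?_
  · filter_upwards [heq z hz, nhdsWithin_le_nhds (isOpen_H.mem_nhds hz)] with w h1 h2
    rw [hζ w h2, h1]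
  · filter_upwards [nhdsWithin_le_nhds (isOpen_H.mem_nhds I_mem_H)] with w hw
    rw [Function.comp_apply, heh γ w hw]
    ring

end Fermat.Agent.Torsion
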