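/-
Torsion classes of `X₀(N)` over `ℂ` and their characters: the analytic part of
`J₀(N)[n] ≅ H¹_par(Γ₀(N), μ_n)`.
-/
import Fermat.Agent.Torsion.Germ
import Fermat.Agent.Multiplier.BridgeGamma0
import Fermat.Agent.Places.Gamma0
import Fermat.Agent.Curve.BasicInstances

set_option autoImplicit false

noncomputable section

namespace Fermat.Agent.Torsion

open AlgebraicCurve ModularCurve CongruenceSubgroup UpperHalfPlane Filter
open Multiplier (IsRoot IsEquivariant IsRootH IsEquivariantH H)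
open scoped MatrixGroups Topology

/-- The function field of `X₀(N)` over `ℂ`. -/
abbrev FC (N : ℕ) [NeZero N] : IntermediateField ℂ (LaurentSeries ℂ) := modularFunctionFieldC ℂ N

variable {N : ℕ} [NeZero N]

instance isFunctionFieldOne_FC : Curve.IsFunctionFieldOne ℂ (FC N) :=
  (Places.x0Model N).isFunctionFieldOne

/-- A function on `X₀(N)` as a function on `ℂ` (relevant on the upper half plane). -/
def evC (f : FC N) : ℂ → ℂ := ModFun.toFun f ∘ ofComplex

theorem evBar_eq (f : modularFunctionFieldBar N) :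
    evBar f = evC (ModFun.barToC N qbarToC f) := rfl

theorem meromorphicOn_evC (f : FC N) : MeromorphicOn (evC f) H :=
  (ModFun.isModularFun_toFun f).mero

theorem evC_act (f : FC N) (γ : Gamma0 N) {z : ℂ} (hz : z ∈ H) :
    evC f (Multiplier.act (γ : SL(2, ℤ)) z) = evC f z := by
  rw [evC, Function.comp_apply, Function.comp_apply, Multiplier.ofComplex_act _ hz,
    (ModFun.isModularFun_toFun f).smul_eq _ γ.2]

theorem evC_mul (f g : FC N) {z : ℂ} (hz : z ∈ H) :
    evC (f * g) =ᶠ[𝓝[≠] z] evC f * evC g :=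
  ModFun.toFun_mul f g ⟨z, hz⟩

theorem evC_one {z : ℂ} (hz : z ∈ H) : evC (1 : FC N) =ᶠ[𝓝[≠] z] 1 :=
  (Places.x0Model N).ev_one ⟨z, hz⟩

theorem evC_pow (f : FC N) (k : ℕ) {z : ℂ} (hz : z ∈ H) :
    evC (f ^ k) =ᶠ[𝓝[≠] z] evC f ^ k := by
  induction k with
  | zero => rw [pow_zero, pow_zero]; exact evC_one hz
  | succ k ih =>
    rw [pow_succ, pow_succ]
    exact (evC_mul _ _ hz).trans (ih.mul EventuallyEq.rfl)

/-- A function without zeros and poles is constant. -/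
theorem exists_const_of_ord_eq_zero {K F : Type*} [Field K] [Field F] [Algebra K F] [IsAlgClosed K]
    [Curve.IsFunctionFieldOne K F] {f : F} (hf : ∀ v : Place K F, v.ord f = 0) :
    ∃ c : K, algebraMap K F c = f := by
  have hint : IsIntegral K f :=
    (Curve.isAlgebraic_of_forall_ord_nonneg fun v => (hf v).ge).isIntegral
  exact minpoly.degree_eq_one_iff.1
    (IsAlgClosed.degree_eq_one_of_irreducible K (minpoly.irreducible hint))

variable {n : ℕ}

/-- The order of the function with `n • D = div f` at a point of the upper half plane. -/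
theorem ordH_toFun_of_nsmul_eq {f : FC N} (hf : f ≠ 0) {D : Divisor ℂ (FC N)}
    (hD : ∀ v, (n : ℤ) * D v = v.ord f) (τ : ℍ) :
    ModFun.ordH (ModFun.toFun f) τ =
      ((n * (Places.ellPeriod (Gamma0 N) τ * D ((Places.x0Model N).placeAt τ)) : ℤ) :
        WithTop ℤ) := by
  rw [← Places.x0Model_ev N f, (Places.x0Model N).ordH_ev hf τ, ← hD]
  congr 1
  ring

variable [NeZero n]

/-- Existence of the root and of its character. -/
theorem exists_rootChar {f : FC N} (hf : f ≠ 0) {D : Divisor ℂ (FC N)}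
    (hD : ∀ v, (n : ℤ) * D v = v.ord f) :
    ∃ (g : ℂ → ℂ) (φ : Additive (Gamma0 N) →+ ZMod n),
      IsRoot n (evC f) g ∧ IsEquivariant (Gamma0 N) (charUnits n φ) g := by
  obtain ⟨g, χ, hg, hχ, he⟩ := Multiplier.exists_rootH_multiplier (NeZero.pos n) (Gamma0 N)
    (ModFun.isModularFun_toFun f).mero (fun τ => ⟨_, ordH_toFun_of_nsmul_eq hf hD τ⟩)
    (ModFun.isModularFun_toFun f).smul_eq
  obtain ⟨φ, rfl⟩ := exists_charUnits_eq χ hχ
  exact ⟨g ∘ ofComplex, φ, hg, he.comp_ofComplex⟩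

omit [NeZero n] in
theorem isEquivariantH_of_isEquivariant {Γ : Subgroup SL(2, ℤ)} {χ : Γ →* ℂˣ} {g : ℂ → ℂ}
    (he : IsEquivariant Γ χ g) : IsEquivariantH Γ χ fun τ => g τ := fun γ τ => by
  simp only [Multiplier.coe_smul_eq_act]
  exact he γ τ τ.coe_im_pos

theorem charUnits_translation_eq_one {f : FC N} (hf : f ≠ 0) {D : Divisor ℂ (FC N)}
    (hD : ∀ v, (n : ℤ) * D v = v.ord f) {g : ℂ → ℂ} (hg : IsRoot n (evC f) g)
    {φ : Additive (Gamma0 N) →+ ZMod n} (he : IsEquivariant (Gamma0 N) (charUnits n φ) g)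
    (A : SL(2, ℤ)) (m : ℤ) (γ : Gamma0 N)
    (hγ : (γ : SL(2, ℤ)) = A * ModularGroup.T ^ m * A⁻¹) : charUnits n φ γ = 1 := by
  suffices h : ∀ (m : ℕ) (γ : Gamma0 N),
      (γ : SL(2, ℤ)) = A * ModularGroup.T ^ (m : ℤ) * A⁻¹ → charUnits n φ γ = 1 by
    rcases Int.eq_nat_or_neg m with ⟨k, rfl | rfl⟩
    · exact h k γ hγ
    · rw [← inv_inj (b := (1 : ℂˣ)), ← map_inv, inv_one]
      refine h k γ⁻¹ ?_
      rw [Subgroup.coe_inv, hγ, zpow_neg]
      group
  intro m γ hγ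
  rcases Nat.eq_zero_or_pos m with rfl | hm
  · have : γ = 1 := Subtype.ext (by rw [hγ]; simp)
    rw [this, map_one]
  haveI : NeZero m := ⟨hm.ne'⟩
  obtain ⟨d, hd⟩ : Places.cuspWidth (Gamma0 N) A⁻¹ ∣ m := by
    rw [← Int.natCast_dvd_natCast, ← Places.T_zpow_smul_eq_iff A⁻¹ (m : ℤ),
      MulAction.Quotient.smul_coe, smul_eq_mul, QuotientGroup.eq]
    rw [show (ModularGroup.T ^ (m : ℤ) * A⁻¹)⁻¹ * A⁻¹
      = (A * ModularGroup.T ^ (m : ℤ) * A⁻¹)⁻¹ by group, ← hγ]
    exact inv_mem γ.2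
  haveI : NeZero (Places.cuspWidth (Gamma0 N) A⁻¹) :=
    ⟨(Places.cuspWidth_pos A⁻¹).ne'⟩
  haveI : NeZero d := ⟨fun h => hm.ne' (by rw [hd, h, mul_zero])⟩
  have hx := ((Places.x0Model N).hasQExp_cuspExp A⁻¹ f).expand_period d
  rw [← hd] at hx
  have horder := (Places.x0Model N).width_mul_order hf A⁻¹ hx
  have hx' : ModFun.HasQExp m (fun τ => ModFun.toFun f (A • τ))
      (qExpand ℂ d ((Places.x0Model N).cuspExp A⁻¹ f)) := by
    simpa only [inv_inv, Places.x0Model_ev] using hx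
  refine ((isEquivariantH_of_isEquivariant he).map_cusp_eq_one_iff (NeZero.pos n)
    (Multiplier.isRootH_of_isRoot hg) A hx' γ hγ).2 ?_
  refine ⟨(d : ℤ) * D ((Places.x0Model N).cuspPlace A⁻¹), mul_left_cancel₀
    (Int.natCast_ne_zero.2 (NeZero.ne (Places.cuspWidth (Gamma0 N) A⁻¹))) ?_⟩
  rw [horder, ← hD, hd]
  push_cast
  ring

/-- The character kills parabolic and elliptic elements. -/
theorem rootChar_isParEllHom {f : FC N} (hf : f ≠ 0) {D : Divisor ℂ (FC N)}
    (hD : ∀ v, (n : ℤ) * D v = v.ord f) {g : ℂ → ℂ} (hg : IsRoot n (evC f) g)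
    {φ : Additive (Gamma0 N) →+ ZMod n} (he : IsEquivariant (Gamma0 N) (charUnits n φ) g) :
    ParHom.IsParEllHom (Gamma0 N) φ := by
  have hneg := ParHom.neg_one_mem_Gamma0 N
  intro γ hγ
  rw [← charUnits_eq_one_iff]
  have hgH := Multiplier.isRootH_of_isRoot hg
  have heH := isEquivariantH_of_isEquivariant he
  rcases lt_or_eq_of_le hγ with hlt | heq
  · refine heH.map_elliptic hgH.meroH hneg (fun τ => ?_) γ hlt
    obtain ⟨k, hk, hk'⟩ := hgH.ordH_eq τ
    refine ⟨D ((Places.x0Model N).placeAt τ), ?_⟩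
    rw [hk]
    rw [ordH_toFun_of_nsmul_eq hf hD τ] at hk'
    rw [WithTop.coe_eq_coe] at hk' ⊢
    exact mul_left_cancel₀ (Int.natCast_ne_zero.2 (NeZero.ne n)) hk'.symm
  · obtain ⟨A, m, hA | hA⟩ := Multiplier.exists_conj_T_zpow heq
    · exact charUnits_translation_eq_one hf hD hg he A m γ hA
    · have h1 := charUnits_translation_eq_one hf hD hg he A m
        (⟨-1, hneg⟩ * γ) (by simp [hA])
      rwa [map_mul, heH.map_neg_one hgH ⟨-1, hneg⟩ rfl, one_mul] at h1

/-- The character only depends on the class of `D`. -/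
theorem rootChar_unique {f f' : FC N} (hf : f ≠ 0) (hf' : f' ≠ 0) {D D' : Divisor ℂ (FC N)}
    (hD : ∀ v, (n : ℤ) * D v = v.ord f) (hD' : ∀ v, (n : ℤ) * D' v = v.ord f')
    (hDD' : D - D' ∈ Divisor.principal (K := ℂ) (F := FC N)) {g g' : ℂ → ℂ}
    (hg : IsRoot n (evC f) g) (hg' : IsRoot n (evC f') g')
    {φ φ' : Additive (Gamma0 N) →+ ZMod n} (he : IsEquivariant (Gamma0 N) (charUnits n φ) g)
    (he' : IsEquivariant (Gamma0 N) (charUnits n φ') g') : φ = φ' := by
  obtain ⟨u, hu, hDu⟩ := hDD'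
  obtain ⟨c, hc⟩ := exists_const_of_ord_eq_zero (K := ℂ) (f := f / (f' * u ^ n)) fun v => by
    rw [div_eq_mul_inv, v.ord_mul hf (inv_ne_zero (mul_ne_zero hf' (pow_ne_zero _ hu))), v.ord_inv,
      v.ord_mul hf' (pow_ne_zero _ hu), ← hD, ← hD', ← zpow_natCast u, v.ord_zpow, ← hDu,
      Finsupp.sub_apply]
    ring
  obtain ⟨b, rfl⟩ := IsAlgClosed.exists_pow_nat_eq c (NeZero.pos n)
  have hff : f = f' * (algebraMap ℂ (FC N) b * u) ^ n := by
    rw [map_pow, eq_div_iff (mul_ne_zero hf' (pow_ne_zero _ hu))] at hc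
    rw [← hc]
    ring
  refine charUnits_injective (multiplier_eq_of_pow_eq (NeZero.pos n) hg he
    (h := g' * evC (algebraMap ℂ (FC N) b * u))
    (fun z hz => ((hg'.meromorphicNFOn hz).meromorphicAt).mul (meromorphicOn_evC _ z hz))
    (fun z hz => ?_) fun γ z hz => ?_)
  · rw [mul_pow, hff]
    exact ((hg'.pow_eq z hz).mul (evC_pow _ n hz).symm).trans (evC_mul _ _ hz).symm
  · rw [Pi.mul_apply, Pi.mul_apply, he' γ z hz, evC_act _ γ hz, mul_assoc]

/-- Characters add. -/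
theorem rootChar_add {f f' : FC N} {g g' g'' : ℂ → ℂ} {φ φ' φ'' : Additive (Gamma0 N) →+ ZMod n}
    (hg : IsRoot n (evC f) g) (hg' : IsRoot n (evC f') g') (hg'' : IsRoot n (evC (f * f')) g'')
    (he : IsEquivariant (Gamma0 N) (charUnits n φ) g)
    (he' : IsEquivariant (Gamma0 N) (charUnits n φ') g')
    (he'' : IsEquivariant (Gamma0 N) (charUnits n φ'') g'') : φ'' = φ + φ' := by
  refine charUnits_injective (multiplier_eq_of_pow_eq (NeZero.pos n) hg'' he'' (h := g * g')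
    (fun z hz => ((hg.meromorphicNFOn hz).meromorphicAt).mul (hg'.meromorphicNFOn hz).meromorphicAt)
    (fun z hz => ?_) fun γ z hz => ?_)
  · rw [mul_pow]
    exact ((hg.pow_eq z hz).mul (hg'.pow_eq z hz)).trans (evC_mul _ _ hz).symm
  · rw [Pi.mul_apply, Pi.mul_apply, he γ z hz, he' γ z hz, charUnits_add, MonoidHom.mul_apply,
      Units.val_mul]
    ring

/-- A class with trivial character is zero. -/
theorem rootChar_eq_zero {f : FC N} (hf : f ≠ 0) {D : Divisor ℂ (FC N)}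
    (hD : ∀ v, (n : ℤ) * D v = v.ord f) {g : ℂ → ℂ} (hg : IsRoot n (evC f) g)
    (he : IsEquivariant (Gamma0 N) (charUnits n (0 : Additive (Gamma0 N) →+ ZMod n)) g) :
    D ∈ Divisor.principal (K := ℂ) (F := FC N) := by
  rw [charUnits_zero] at he
  have hgH := Multiplier.isRootH_of_isRoot hg
  have hmod : ModFun.IsModularFun N fun τ => g τ :=
    hgH.isModularFun (NeZero.pos n) (ModFun.isModularFun_toFun f) fun γ hγ τ => by
      simpa using isEquivariantH_of_isEquivariant he ⟨γ, hγ⟩ τ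
  obtain ⟨x, hx⟩ := hmod.exists_hasQExp
  set u : FC N := ⟨x, ModFun.mem_modularFunctionFieldC_of_hasQExp hmod hx⟩
  have hun : u ^ n = f := by
    refine (Places.x0Model N).eq_of_eqPunct fun τ => ?_
    rw [Places.x0Model_ev, Places.x0Model_ev]
    exact ((evC_pow u n τ.coe_im_pos).trans
      ((ModFun.toFun_eqPunct u hmod hx τ).pow_const n)).trans (hgH.eqPunct τ)
  have hu : u ≠ 0 := fun h => hf (by rw [← hun, h, zero_pow (NeZero.ne n)])
  refine ⟨u, hu, fun v => mul_left_cancel₀ (Int.natCast_ne_zero.2 (NeZero.ne n)) ?_⟩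
  rw [hD, ← hun, ← zpow_natCast u, v.ord_zpow]

/-- Every parabolic-elliptic character occurs. -/
theorem exists_of_isParEllHom {φ : Additive (Gamma0 N) →+ ZMod n}
    (hφ : ParHom.IsParEllHom (Gamma0 N) φ) :
    ∃ (D : Divisor.degZero (K := ℂ) (F := FC N)) (f : FC N) (g : ℂ → ℂ), f ≠ 0 ∧
      (∀ v, (n : ℤ) * (D : Divisor ℂ (FC N)) v = v.ord f) ∧
      IsRoot n (evC f) g ∧ IsEquivariant (Gamma0 N) (charUnits n φ) g := by
  have hneg := ParHom.neg_one_mem_Gamma0 N
  have hpe : ∀ γ : Gamma0 N,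
      ((γ : SL(2, ℤ)) : Matrix (Fin 2) (Fin 2) ℤ).trace ^ 2 ≤ 4 → charUnits n φ γ = 1 :=
    fun γ hγ => (charUnits_eq_one_iff φ γ).2 (hφ γ hγ)
  obtain ⟨f₀, g₀, hmod, hg₀, he₀, htop, -, -⟩ :=
    Multiplier.exists_rootH_of_character_Gamma0 hneg _ (NeZero.pos n) (charUnits_pow φ) hpe
  obtain ⟨x, hx⟩ := hmod.exists_hasQExp
  set f : FC N := ⟨x, ModFun.mem_modularFunctionFieldC_of_hasQExp hmod hx⟩
  have hev : ModFun.EqPunct (ModFun.toFun f) f₀ := ModFun.toFun_eqPunct f hmod hx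
  have hf : f ≠ 0 := fun h0 => htop UpperHalfPlane.I <| by
    rw [← hev.ordH_eq, ModFun.ordH_eq_top_iff (ModFun.isModularFun_toFun f).mero, h0]
    exact (Places.x0Model N).ev_zero
  have hg : IsRoot n (evC f) (g₀ ∘ ofComplex) :=
    { meromorphicNFOn := hg₀.meromorphicNFOn
      pow_eq := fun z hz => (hg₀.pow_eq z hz).trans (hev ⟨z, hz⟩).symm
      order_ne_top := hg₀.order_ne_top }
  have hgH : IsRootH n (ModFun.toFun f) g₀ := hg
  have hdvd : ∀ v : Place ℂ (FC N), (n : ℤ) ∣ v.ord f := by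
    intro v
    rcases (Places.x0Model N).exists_placeAt_or_cuspPlace v with ⟨τ, rfl⟩ | ⟨A, rfl⟩
    · obtain ⟨m, hm, hm'⟩ := hgH.ordH_eq τ
      obtain ⟨k, rfl⟩ := (he₀.forall_stabilizer_iff hgH.meroH hneg hm).1 fun γ hγ =>
        hpe γ (Multiplier.trace_sq_le_of_smul_eq hγ)
      have h1 := (Places.x0Model N).ordH_ev hf τ
      rw [Places.x0Model_ev, hm', WithTop.coe_eq_coe] at h1
      have hpos : (Places.ellPeriod (Gamma0 N) τ : ℤ) ≠ 0 :=
        Int.natCast_ne_zero.2 (Places.ellPeriod_pos hneg τ).ne'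
      exact ⟨k, mul_left_cancel₀ hpos (by rw [← h1]; ring)⟩
    · haveI : NeZero (Places.cuspWidth (Gamma0 N) A) := ⟨(Places.cuspWidth_pos A).ne'⟩
      have hx' : ModFun.HasQExp (Places.cuspWidth (Gamma0 N) A)
          (fun τ => ModFun.toFun f (A⁻¹ • τ)) ((Places.x0Model N).cuspExp A f) :=
        (Places.x0Model N).hasQExp_cuspExp A f
      have hmem : A⁻¹ * ModularGroup.T ^ (Places.cuspWidth (Gamma0 N) A : ℤ) * A⁻¹⁻¹
          ∈ Gamma0 N := by
        have h := (Places.T_zpow_smul_eq_iff (Γ := Gamma0 N) A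
          (Places.cuspWidth (Gamma0 N) A : ℤ)).2 dvd_rfl
        rw [MulAction.Quotient.smul_coe, smul_eq_mul, QuotientGroup.eq] at h
        simpa [mul_assoc] using inv_mem h
      rw [← (Places.x0Model N).order_cuspExp hf A]
      refine (he₀.map_cusp_eq_one_iff (NeZero.pos n) hgH A⁻¹ hx' ⟨_, hmem⟩ rfl).1 (hpe _ ?_)
      refine le_of_eq ?_
      rw [Matrix.SpecialLinearGroup.coe_mul, Matrix.SpecialLinearGroup.coe_mul,
        Matrix.trace_mul_cycle, ← Matrix.SpecialLinearGroup.coe_mul, inv_mul_cancel,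
        Matrix.SpecialLinearGroup.coe_one, one_mul, ModularGroup.coe_T_zpow, Matrix.trace_fin_two]
      norm_num
  set D : Divisor ℂ (FC N) :=
    (Curve.divisorOf ℂ f).mapRange (fun k => k / (n : ℤ)) (Int.zero_ediv _)
  have hD : ∀ v, (n : ℤ) * D v = v.ord f := fun v => by
    rw [Finsupp.mapRange_apply, Curve.divisorOf_apply, Int.mul_ediv_cancel' (hdvd v)]
  have hdeg : D ∈ Divisor.degZero (K := ℂ) (F := FC N) := by
    have h : n • D = Curve.divisorOf ℂ f := Finsupp.ext fun v => by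
      rw [Finsupp.smul_apply, Curve.divisorOf_apply, nsmul_eq_mul]
      exact hD v
    have h2 := congrArg Divisor.degree h
    rw [map_nsmul, Curve.degree_divisorOf] at h2
    exact Divisor.mem_degZero.2 ((smul_eq_zero.1 h2).resolve_left (NeZero.ne n))
  exact ⟨⟨D, hdeg⟩, f, g₀ ∘ ofComplex, hf, hD, hg, he₀.comp_ofComplex⟩

end Fermat.Agent.Torsion
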