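/-
`X₀(N)` over `ℂ` as constant field extension of `X₀(N)` over `ℚ̄`: the map on divisor classes
along the fixed embedding `ℚ̄ → ℂ`.
-/
import Fermat.Agent.Torsion.CharC
import Fermat.Agent.Curve.ConstExtModular
import Fermat.Agent.Curve.ConstExtRigid
import Fermat.Agent.Curve.BasicModular

set_option autoImplicit false

noncomputable section

namespace Fermat.Agent.Torsion

open AlgebraicCurve ModularCurve

local notation "ℚbar" => AlgebraicClosure ℚ

variable (N : ℕ) [NeZero N]

/-- `ℂ` as a `ℚ̄`-algebra along `qbarToC`. -/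
@[reducible] def algQC : Algebra (AlgebraicClosure ℚ) ℂ := qbarToC.toAlgebra

attribute [local instance] algQC

/-- The function field over `ℂ` as a `ℚ̄`-algebra. -/
@[reducible] def algQE : Algebra (AlgebraicClosure ℚ) (FC N) :=
  ((algebraMap ℂ (FC N)).comp qbarToC).toAlgebra

/-- The function field over `ℂ` as an algebra over the function field over `ℚ̄`. -/
@[reducible] def algFE : Algebra (modularFunctionFieldBar N) (FC N) :=
  (ModFun.barToC N qbarToC).toAlgebra

attribute [local instance] algQE algFE

theorem isScalarTower_QCE : IsScalarTower (AlgebraicClosure ℚ) ℂ (FC N) :=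
  IsScalarTower.of_algebraMap_eq fun _ => rfl

theorem barToC_algebraMap (a : AlgebraicClosure ℚ) :
    ModFun.barToC N qbarToC (algebraMap ℚbar (modularFunctionFieldBar N) a)
      = algebraMap ℂ (FC N) (qbarToC a) := by
  refine Subtype.ext ?_
  show coeffMap qbarToC (algebraMap ℚbar (LaurentSeries ℚbar) a) = algebraMap ℂ (LaurentSeries ℂ) _
  rw [algebraMap_laurentSeries_eq_single, algebraMap_laurentSeries_eq_single, coeffMap_single]

theorem isScalarTower_QFE : IsScalarTower (AlgebraicClosure ℚ) (modularFunctionFieldBar N) (FC N) :=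
  IsScalarTower.of_algebraMap_eq fun a => (barToC_algebraMap N a).symm

attribute [local instance] isScalarTower_QCE isScalarTower_QFE

theorem algebraMap_bar_eq (f : modularFunctionFieldBar N) :
    algebraMap (modularFunctionFieldBar N) (FC N) f = ModFun.barToC N qbarToC f := rfl

theorem isConstExt_FC : Curve.IsConstExt ℚbar (modularFunctionFieldBar N) ℂ (FC N) := by
  refine Curve.isConstExt_laurent (fun x => rfl) ?_
  show modularFunctionFieldC ℂ N ≤ _
  unfold modularFunctionFieldC
  rw [IntermediateField.adjoin_le_iff]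
  rintro y (rfl | rfl) <;> refine IntermediateField.subset_adjoin _ _ ?_
  · refine ⟨jqModC ℚbar, ?_, coeffMap_jqModC _⟩
    show jqModC ℚbar ∈ modularFunctionFieldBar N
    rw [show modularFunctionFieldBar N = modularFunctionFieldC ℚbar N from
      ModFun.laurentBaseChange_full_eq N ℚbar]
    exact jqModC_mem ℚbar N
  · refine ⟨jqNModC ℚbar N, ?_, coeffMap_jqNModC _ N⟩
    show jqNModC ℚbar N ∈ modularFunctionFieldBar N
    rw [show modularFunctionFieldBar N = modularFunctionFieldC ℚbar N from
      ModFun.laurentBaseChange_full_eq N ℚbar]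
    exact jqNModC_mem ℚbar N

attribute [local instance] isConstExt_FC

instance nonempty_place_bar : Nonempty (Place ℚbar (modularFunctionFieldBar N)) :=
  Curve.nonempty_place_of_isFunctionFieldOne

/-- The extension map on divisors. -/
def toDivC : Divisor ℚbar (modularFunctionFieldBar N) →+ Divisor ℂ (FC N) :=
  Curve.divExt ℂ (FC N)

/-- The extension map on divisors of degree zero. -/
def toDegZeroC :
    Divisor.degZero (K := ℚbar) (F := modularFunctionFieldBar N) →+
      Divisor.degZero (K := ℂ) (F := FC N) :=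
  Curve.degZeroExt ℂ (FC N)

/-- The map `JZero N → J₀(N)(ℂ)`. -/
def picToC : JZero N →+ Pic0 ℂ (FC N) := Curve.picExt ℂ (FC N)

theorem picToC_mk (D : Divisor.degZero (K := ℚbar) (F := modularFunctionFieldBar N)) :
    picToC N (Pic0.mk D) = Pic0.mk (toDegZeroC N D) := rfl

theorem coe_toDegZeroC (D : Divisor.degZero (K := ℚbar) (F := modularFunctionFieldBar N)) :
    (toDegZeroC N D : Divisor ℂ (FC N))
      = toDivC N (D : Divisor ℚbar (modularFunctionFieldBar N)) := rfl

theorem picToC_injective : Function.Injective (picToC N) := Curve.picExt_injective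

theorem toDivC_eq_ord {n : ℕ} {D : Divisor ℚbar (modularFunctionFieldBar N)}
    {f : modularFunctionFieldBar N} (hD : ∀ v, (n : ℤ) * D v = v.ord f) (w : Place ℂ (FC N)) :
    (n : ℤ) * toDivC N D w = w.ord (ModFun.barToC N qbarToC f) := by
  have h := Curve.ord_algebraMap_eq_divExt (Ω := ℂ) (E := FC N) (D := n • D) (f := f)
    (fun v => by rw [Finsupp.smul_apply, nsmul_eq_mul]; exact hD v) w
  rw [map_nsmul, Finsupp.smul_apply, nsmul_eq_mul] at h
  exact h

theorem exists_mem_torsion_picToC (n : ℕ) [Finite (Pic0.torsion ℂ (FC N) n)] {y : Pic0 ℂ (FC N)}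
    (hy : y ∈ Pic0.torsion ℂ (FC N) n) :
    ∃ x ∈ jTorsion N n, picToC N x = y :=
  Curve.mem_range_picExt_of_mem_torsion hy

end Fermat.Agent.Torsion
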