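/-
Existence, uniqueness, additivity, injectivity and surjectivity of the character of a torsion
class of `JZero N`.
-/
import Fermat.Agent.Torsion.Extension

set_option autoImplicit false

noncomputable section

namespace Fermat.Agent.Torsion

open AlgebraicCurve ModularCurve CongruenceSubgroup Filter
open Multiplier (IsRoot IsEquivariant H)
open scoped MatrixGroups Topology

variable {N : ℕ} [NeZero N] {n : ℕ} [NeZero n]

theorem barToC_ne_zero {f : modularFunctionFieldBar N} (hf : f ≠ 0) :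
    ModFun.barToC N qbarToC f ≠ 0 :=
  (map_ne_zero _).2 hf

/-- An element of order dividing `n` is the class of `D` with `n • D = div f`. -/
theorem exists_nsmul_eq_ord {K F : Type*} [Field K] [Field F] [Algebra K F] {m : ℕ} {x : Pic0 K F}
    (hx : x ∈ Pic0.torsion K F m) :
    ∃ (D : Divisor.degZero (K := K) (F := F)) (f : F), Pic0.mk D = x ∧ f ≠ 0 ∧
      ∀ v, (m : ℤ) * (D : Divisor K F) v = v.ord f := by
  obtain ⟨D, rfl⟩ := Pic0.mk_surjective x
  rw [Pic0.mem_torsion] at hx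
  obtain ⟨f, hf, hD⟩ := AddSubgroup.mem_addSubgroupOf.1
    ((QuotientAddGroup.eq_zero_iff _).1 (show Pic0.mk ((m : ℤ) • D) = 0 from hx))
  exact ⟨D, f, rfl, hf, fun v => by simpa using hD v⟩

theorem exists_isTorsionChar {x : JZero N} (hx : x ∈ jTorsion N n) :
    ∃ φ : Additive (Gamma0 N) →+ ZMod n, IsTorsionChar n x φ := by
  obtain ⟨D, f, hDx, hf, hD⟩ := exists_nsmul_eq_ord hx
  obtain ⟨g, φ, hg, he⟩ := exists_rootChar (barToC_ne_zero hf) (toDivC_eq_ord N hD)
  exact ⟨φ, D, f, g, hDx, hf, hD, hg, he⟩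

theorem IsTorsionChar.mem_jTorsion {x : JZero N} {φ : Additive (Gamma0 N) →+ ZMod n}
    (h : IsTorsionChar n x φ) : x ∈ jTorsion N n := by
  obtain ⟨D, f, g, rfl, hf, hD, -, -⟩ := h
  rw [Pic0.mem_torsion]
  refine (QuotientAddGroup.eq_zero_iff ((n : ℤ) • D)).2 (AddSubgroup.mem_addSubgroupOf.2 ?_)
  exact ⟨f, hf, fun v => by simpa using hD v⟩

theorem IsTorsionChar.isParEllHom {x : JZero N} {φ : Additive (Gamma0 N) →+ ZMod n}
    (h : IsTorsionChar n x φ) : ParHom.IsParEllHom (Gamma0 N) φ := by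
  obtain ⟨D, f, g, -, hf, hD, hg, he⟩ := h
  exact rootChar_isParEllHom (barToC_ne_zero hf) (toDivC_eq_ord N hD) hg he

theorem IsTorsionChar.unique {x : JZero N} {φ φ' : Additive (Gamma0 N) →+ ZMod n}
    (h : IsTorsionChar n x φ) (h' : IsTorsionChar n x φ') : φ = φ' := by
  obtain ⟨D, f, g, hx, hf, hD, hg, he⟩ := h
  obtain ⟨D', f', g', hx', hf', hD', hg', he'⟩ := h'
  refine rootChar_unique (barToC_ne_zero hf) (barToC_ne_zero hf') (toDivC_eq_ord N hD)
    (toDivC_eq_ord N hD') ?_ hg hg' he he'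
  have h1 : Pic0.mk (toDegZeroC N D) = Pic0.mk (toDegZeroC N D') := by
    rw [← picToC_mk, ← picToC_mk, hx, hx']
  simpa [coe_toDegZeroC] using AddSubgroup.mem_addSubgroupOf.1 (QuotientAddGroup.eq_iff_sub_mem.1 h1)

theorem IsTorsionChar.add {x y : JZero N} {φ ψ : Additive (Gamma0 N) →+ ZMod n}
    (h : IsTorsionChar n x φ) (h' : IsTorsionChar n y ψ) :
    IsTorsionChar n (x + y) (φ + ψ) := by
  obtain ⟨D, f, g, hx, hf, hD, hg, he⟩ := h
  obtain ⟨D', f', g', hy, hf', hD', hg', he'⟩ := h'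
  have hDD : ∀ v, (n : ℤ) *
      ((D + D' : Divisor.degZero (K := AlgebraicClosure ℚ) (F := modularFunctionFieldBar N)) :
        Divisor (AlgebraicClosure ℚ) (modularFunctionFieldBar N)) v = v.ord (f * f') := fun v => by
    rw [AddSubgroup.coe_add, Finsupp.add_apply, mul_add, hD, hD', v.ord_mul hf hf']
  obtain ⟨g'', χ, hg'', he''⟩ :=
    exists_rootChar (barToC_ne_zero (mul_ne_zero hf hf')) (toDivC_eq_ord N hDD)
  obtain rfl : χ = φ + ψ := by
    rw [map_mul] at hg''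
    exact rootChar_add hg hg' hg'' he he' he''
  exact ⟨D + D', f * f', g'', by rw [← hx, ← hy]; rfl, mul_ne_zero hf hf', hDD, hg'', he''⟩

theorem IsTorsionChar.eq_zero {x : JZero N}
    (h : IsTorsionChar n x (0 : Additive (Gamma0 N) →+ ZMod n)) : x = 0 := by
  obtain ⟨D, f, g, rfl, hf, hD, hg, he⟩ := h
  refine picToC_injective N ?_
  rw [map_zero, picToC_mk]
  exact (QuotientAddGroup.eq_zero_iff _).2 (AddSubgroup.mem_addSubgroupOf.2
    (rootChar_eq_zero (barToC_ne_zero hf) (toDivC_eq_ord N hD) hg he))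

theorem IsTorsionChar.congr_unique {x y : JZero N} {φ : Additive (Gamma0 N) →+ ZMod n}
    (h : IsTorsionChar n x φ) (h' : IsTorsionChar n y φ) : x = y := by
  obtain ⟨ψ, hψ⟩ := exists_isTorsionChar ((jTorsion N n).sub_mem h.mem_jTorsion h'.mem_jTorsion)
  have h1 := hψ.add h'
  rw [sub_add_cancel] at h1
  have h2 : ψ = 0 := by
    have := h1.unique h
    simpa using this
  exact sub_eq_zero.1 (h2 ▸ hψ).eq_zero

variable (N n) in
theorem finite_torsion_FC : Finite (Pic0.torsion ℂ (FC N) n) := by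
  have hex : ∀ x : Pic0.torsion ℂ (FC N) n, ∃ φ : CharMod N n, ∃ D f g,
      Pic0.mk D = (x : Pic0 ℂ (FC N)) ∧ f ≠ 0 ∧
        (∀ v, (n : ℤ) * (D : Divisor ℂ (FC N)) v = v.ord f) ∧ IsRoot n (evC f) g ∧
        IsEquivariant (Gamma0 N) (charUnits n (φ : Additive (Gamma0 N) →+ ZMod n)) g := fun x => by
    obtain ⟨D, f, hx, hf, hD⟩ := exists_nsmul_eq_ord x.2
    obtain ⟨g, φ, hg, he⟩ := exists_rootChar hf hD
    exact ⟨⟨φ, ParHom.mem_parEllHoms.2 (rootChar_isParEllHom hf hD hg he)⟩,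
      D, f, g, hx, hf, hD, hg, he⟩
  choose Φ hΦ using hex
  haveI : Finite (CharMod N n) := Finite.of_equiv _
    (ParHom.parEquiv (ParHom.neg_one_mem_Gamma0 N) ℤ (ZMod n)).toEquiv.symm
  refine Finite.of_injective Φ fun x y hxy => Subtype.ext ?_
  obtain ⟨D, f, g, hx, hf, hD, hg, he⟩ := hΦ x
  obtain ⟨D', f', g', hy, hf', hD', hg', he'⟩ := hΦ y
  rw [hxy] at he
  -- the character of the difference is zero
  have hDD : ∀ v, (n : ℤ) * ((D - D' : Divisor.degZero (K := ℂ) (F := FC N)) : Divisor ℂ (FC N)) v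
      = v.ord (f / f') := fun v => by
    rw [AddSubgroup.coe_sub, Finsupp.sub_apply, mul_sub, hD, hD', div_eq_mul_inv,
      v.ord_mul hf (inv_ne_zero hf'), v.ord_inv]
    ring
  obtain ⟨g'', ψ, hg'', he''⟩ := exists_rootChar (div_ne_zero hf hf') hDD
  have h0 := rootChar_add (f := f') (f' := f / f') hg' hg''
    (g'' := g) (by rwa [mul_div_cancel₀ _ hf']) he' he'' he
  have hψ : ψ = 0 := by simpa using h0.symm
  rw [hψ] at he''
  rw [← sub_eq_zero, ← hx, ← hy]
  exact (QuotientAddGroup.eq_zero_iff (D - D')).2 (AddSubgroup.mem_addSubgroupOf.2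
    (rootChar_eq_zero (div_ne_zero hf hf') hDD hg'' he''))

/-- Surjectivity: every parabolic-elliptic character is the character of a torsion class. -/
theorem exists_isTorsionChar_of_isParEllHom {φ : Additive (Gamma0 N) →+ ZMod n}
    (hφ : ParHom.IsParEllHom (Gamma0 N) φ) :
    ∃ x ∈ jTorsion N n, IsTorsionChar n x φ := by
  haveI := finite_torsion_FC N n
  obtain ⟨D₀, f₀, g₀, hf₀, hD₀, hg₀, he₀⟩ := exists_of_isParEllHom hφ
  have hy : Pic0.mk D₀ ∈ Pic0.torsion ℂ (FC N) n := by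
    rw [Pic0.mem_torsion]
    refine (QuotientAddGroup.eq_zero_iff ((n : ℤ) • D₀)).2 (AddSubgroup.mem_addSubgroupOf.2 ?_)
    exact ⟨f₀, hf₀, fun v => by simpa using hD₀ v⟩
  obtain ⟨x, hx, hxy⟩ := exists_mem_torsion_picToC N n hy
  obtain ⟨ψ, hψ⟩ := exists_isTorsionChar hx
  obtain ⟨D, f, g, hDx, hf, hD, hg, he⟩ := hψ
  obtain rfl : ψ = φ := by
    refine rootChar_unique (barToC_ne_zero hf) hf₀ (toDivC_eq_ord N hD) hD₀ ?_ hg hg₀ he he₀
    have h1 : Pic0.mk (toDegZeroC N D) = Pic0.mk D₀ := by rw [← picToC_mk, hDx, hxy]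
    simpa [coe_toDegZeroC] using
      AddSubgroup.mem_addSubgroupOf.1 (QuotientAddGroup.eq_iff_sub_mem.1 h1)
  exact ⟨x, hx, D, f, g, hDx, hf, hD, hg, he⟩

theorem stdAddChar_castHom (m : ℕ) [NeZero m] (k : ZMod (n * m)) :
    ZMod.stdAddChar (ZMod.castHom (dvd_mul_right n m) (ZMod n) k)
      = ZMod.stdAddChar k ^ m := by
  obtain ⟨j, rfl⟩ := ZMod.intCast_surjective k
  rw [map_intCast, ZMod.stdAddChar_coe, ZMod.stdAddChar_coe, ← Complex.exp_nat_mul]
  congr 1
  have hn : (n : ℂ) ≠ 0 := Nat.cast_ne_zero.2 (NeZero.ne n)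
  have hm : (m : ℂ) ≠ 0 := Nat.cast_ne_zero.2 (NeZero.ne m)
  push_cast
  field_simp

/-- Multiplication by `m` reduces the character modulo `n`. -/
theorem IsTorsionChar.nsmul_level (m : ℕ) [NeZero m] {x : JZero N}
    {φ : Additive (Gamma0 N) →+ ZMod (n * m)} (h : IsTorsionChar (n * m) x φ) :
    IsTorsionChar n (m • x)
      ((ZMod.castHom (dvd_mul_right n m) (ZMod n)).toAddMonoidHom.comp φ) := by
  obtain ⟨D, f, g, rfl, hf, hD, hg, he⟩ := h
  refine ⟨m • D, f, g ^ m, rfl, hf, fun v => ?_, ⟨?_, fun z hz => ?_, fun z hz => ?_⟩,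
    fun γ z hz => ?_⟩
  · rw [← hD v]
    simp [mul_assoc]
  · intro z hz
    simpa only [zpow_natCast] using (hg.meromorphicNFOn.zpow (n := (m : ℤ))) hz
  · rw [← pow_mul, mul_comm m n]
    exact hg.pow_eq z hz
  · rw [meromorphicOrderAt_pow (hg.meromorphicNFOn hz).meromorphicAt]
    obtain ⟨k, hk, -⟩ := hg.meromorphicOrderAt_eq hz
    rw [hk]
    exact WithTop.coe_ne_top (a := (m : ℤ) * k)
  · rw [Pi.pow_apply, Pi.pow_apply, he γ z hz, mul_pow, coe_charUnits, coe_charUnits]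
    congr 1
    exact (stdAddChar_castHom m _).symm

/-- A class `D` with `n • D = div f` is zero as soon as an `n`th root of `f` is invariant under
a subgroup `Δ` on which only the trivial parabolic-elliptic character is trivial. -/
theorem mk_eq_zero_of_invariant_root
    (D : Divisor.degZero (K := AlgebraicClosure ℚ) (F := modularFunctionFieldBar N))
    {f : modularFunctionFieldBar N} (hf : f ≠ 0)
    (hD : ∀ v, (n : ℤ) * (D : Divisor (AlgebraicClosure ℚ) (modularFunctionFieldBar N)) v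
      = v.ord f)
    (Δ : Subgroup SL(2, ℤ))
    (hΔ : ∀ φ : Additive (Gamma0 N) →+ ZMod n, ParHom.IsParEllHom (Gamma0 N) φ →
      (∀ γ : Gamma0 N, (γ : SL(2, ℤ)) ∈ Δ → φ (Additive.ofMul γ) = 0) → φ = 0)
    {g : ℂ → ℂ} (hg : MeromorphicOn g H)
    (hpow : ∀ z ∈ H, g ^ n =ᶠ[𝓝[≠] z] evBar f)
    (hinv : Multiplier.IsInvariant Δ g) :
    Pic0.mk D = 0 := by
  obtain ⟨g', φ, hg', he⟩ := exists_rootChar (barToC_ne_zero hf) (toDivC_eq_ord N hD)
  have hx : IsTorsionChar n (Pic0.mk D) φ := ⟨D, f, g', rfl, hf, hD, hg', he⟩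
  obtain rfl : φ = 0 := by
    refine hΔ φ hx.isParEllHom fun γ hγ => ?_
    rw [← charUnits_eq_one_iff]
    obtain ⟨hroot, heq⟩ := isRoot_toMeromorphicNFOn (NeZero.pos n) hg hpow fun z hz => by
      obtain ⟨k, -, hk⟩ := hg'.meromorphicOrderAt_eq hz
      rw [evBar_eq, hk]
      exact WithTop.coe_ne_top
    obtain ⟨ζ, -, hζ⟩ := hroot.unique (NeZero.pos n) hg'
    obtain ⟨w, hw1, hw2, hw3, hwH, hw0, -⟩ :=
      ((((Multiplier.tendsto_act_nhdsNE (γ : SL(2, ℤ)) Multiplier.I_mem_H).eventually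
          (heq _ (Multiplier.act_mem Multiplier.I_mem_H))).and
        ((hinv _ hγ _ Multiplier.I_mem_H).and ((heq _ Multiplier.I_mem_H).and
          (hg'.eventually_good Multiplier.I_mem_H))))).exists
    simp only [Function.comp_apply] at hw1 hw2
    refine Units.ext (mul_right_cancel₀ hw0 ?_)
    rw [← he γ w hwH, hζ _ (Multiplier.act_mem hwH), hw1, hw2, ← hw3, ← hζ w hwH, Units.val_one,
      one_mul]
  exact hx.eq_zero

end Fermat.Agent.Torsion
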