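/-
Conjugation of `Γ₀(N)` by the Fricke matrix `!![0, -1; N, 0]`.
-/
import Mathlib.NumberTheory.ModularForms.CongruenceSubgroups
import Fermat.Agent.ParHom.Defs

set_option autoImplicit false

noncomputable section

namespace Fermat.Agent.Torsion

open CongruenceSubgroup
open scoped MatrixGroups

variable {N : ℕ}

/-- `W γ W⁻¹` for `W = !![0, -1; N, 0]`, as an element of `SL(2, ℤ)`. -/
def frickeConjSL (γ : Gamma0 N) : SL(2, ℤ) :=
  ⟨!![(γ : SL(2, ℤ)) 1 1, -((γ : SL(2, ℤ)) 1 0 / N);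
      -((N : ℤ) * (γ : SL(2, ℤ)) 0 1), (γ : SL(2, ℤ)) 0 0], by
    obtain ⟨k, hk⟩ := (ZMod.intCast_zmod_eq_zero_iff_dvd _ _).mp (Gamma0_mem.mp γ.2)
    have h := (γ : SL(2, ℤ)).2
    rw [Matrix.det_fin_two, hk] at h
    rw [Matrix.det_fin_two_of, hk]
    rcases eq_or_ne (N : ℤ) 0 with hN | hN
    · rw [hN] at h ⊢
      simp at h ⊢
      linarith
    · rw [Int.mul_ediv_cancel_left _ hN]
      linear_combination h⟩

theorem frickeConjSL_mem (γ : Gamma0 N) : frickeConjSL γ ∈ Gamma0 N := by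
  rw [Gamma0_mem]
  simp [frickeConjSL]

theorem frickeConjSL_mul (γ δ : Gamma0 N) :
    frickeConjSL (γ * δ) = frickeConjSL γ * frickeConjSL δ := by
  obtain ⟨k, hk⟩ := (ZMod.intCast_zmod_eq_zero_iff_dvd _ _).mp (Gamma0_mem.mp γ.2)
  obtain ⟨m, hm⟩ := (ZMod.intCast_zmod_eq_zero_iff_dvd _ _).mp (Gamma0_mem.mp δ.2)
  have h10 : ((γ * δ : Gamma0 N) : SL(2, ℤ)) 1 0
      = (N : ℤ) * (k * (δ : SL(2, ℤ)) 0 0 + (γ : SL(2, ℤ)) 1 1 * m) := by
    simp [Matrix.mul_apply, Fin.sum_univ_two, hk, hm]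
    ring
  ext i j
  rcases eq_or_ne (N : ℤ) 0 with hN | hN
  · fin_cases i <;> fin_cases j <;>
      simp [frickeConjSL, Matrix.mul_apply, Fin.sum_univ_two, hk, hm, hN] <;> ring
  · have e : ((N : ℤ) * k * (δ : SL(2, ℤ)) 0 0 + (γ : SL(2, ℤ)) 1 1 * ((N : ℤ) * m)) / N
        = k * (δ : SL(2, ℤ)) 0 0 + (γ : SL(2, ℤ)) 1 1 * m := by
      rw [show (N : ℤ) * k * (δ : SL(2, ℤ)) 0 0 + (γ : SL(2, ℤ)) 1 1 * ((N : ℤ) * m)
        = (N : ℤ) * (k * (δ : SL(2, ℤ)) 0 0 + (γ : SL(2, ℤ)) 1 1 * m) by ring,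
        Int.mul_ediv_cancel_left _ hN]
    fin_cases i <;> fin_cases j <;>
      simp [frickeConjSL, hk, hm, e, Int.mul_ediv_cancel_left _ hN, Matrix.mul_apply,
        Fin.sum_univ_two] <;> ring

/-- Conjugation by the Fricke matrix, as an endomorphism of `Γ₀(N)`. -/
def frickeConj (N : ℕ) : Gamma0 N →* Gamma0 N :=
  MonoidHom.mk' (fun γ => ⟨frickeConjSL γ, frickeConjSL_mem γ⟩)
    fun γ δ => Subtype.ext (frickeConjSL_mul γ δ)

theorem tr_frickeConj (γ : Gamma0 N) :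
    ParHom.tr ((frickeConj N γ : Gamma0 N) : SL(2, ℤ)) = ParHom.tr (γ : SL(2, ℤ)) := by
  simp [frickeConj, frickeConjSL, ParHom.tr, Matrix.trace_fin_two, add_comm]

theorem frickeConj_frickeConj [NeZero N] (γ : Gamma0 N) :
    frickeConj N (frickeConj N γ) = γ := by
  have hN : (N : ℤ) ≠ 0 := by exact_mod_cast NeZero.ne N
  obtain ⟨k, hk⟩ := (ZMod.intCast_zmod_eq_zero_iff_dvd _ _).mp (Gamma0_mem.mp γ.2)
  apply Subtype.ext
  ext i j
  have hneg : -((N : ℤ) * (γ : SL(2, ℤ)) 0 1) / N = -((γ : SL(2, ℤ)) 0 1) := by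
    rw [← mul_neg, Int.mul_ediv_cancel_left _ hN]
  fin_cases i <;> fin_cases j <;>
    simp [frickeConj, frickeConjSL, hk, hneg, Int.mul_ediv_cancel_left _ hN]

/-- Composition of a parabolic-elliptic homomorphism with the Fricke conjugation. -/
theorem isParEllHom_comp_frickeConj {A : Type*} [AddCommGroup A] {φ : Additive (Gamma0 N) →+ A}
    (hφ : ParHom.IsParEllHom (Gamma0 N) φ) :
    ParHom.IsParEllHom (Gamma0 N) (φ.comp (MonoidHom.toAdditive (frickeConj N))) :=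
  fun γ hγ => hφ (frickeConj N γ) (by rwa [tr_frickeConj])

end Fermat.Agent.Torsion
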