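/-
The coset representatives of the double coset of `T_ℓ`, conjugated by the Fricke matrix: they
compute the product over `Γ₀(N) ⧸ Γ₀(Nℓ)` of `τ ↦ F (ℓ τ)`.
-/
import Fermat.Agent.HeckeJ.Cosets
import Fermat.Agent.HeckeCohom.Operators
import Fermat.Agent.Torsion.Fricke
import Mathlib.Analysis.Complex.UpperHalfPlane.Manifold
import Mathlib.Analysis.Meromorphic.Order

set_option autoImplicit false

noncomputable section

namespace Fermat.Agent.Torsion

open CongruenceSubgroup UpperHalfPlane ModularForm Filter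
open scoped MatrixGroups Topology

variable (N : ℕ) [NeZero N]

/-- The Fricke matrix `!![0, -1; N, 0]`. -/
def frickeGL : GL (Fin 2) ℝ :=
  Matrix.GeneralLinearGroup.mkOfDetNeZero !![0, -1; (N : ℝ), 0]
    (by rw [Matrix.det_fin_two_of]; simp [NeZero.ne N])

theorem val_frickeGL :
    ((frickeGL N : GL (Fin 2) ℝ) : Matrix (Fin 2) (Fin 2) ℝ) = !![0, -1; (N : ℝ), 0] := rfl

theorem frickeGL_mul_gamma0GL (γ : Gamma0 N) :
    frickeGL N * HeckeCohom.gamma0GL N γ =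
      HeckeCohom.gamma0GL N (frickeConj N γ) * frickeGL N := by
  obtain ⟨k, hk⟩ := HeckeCohom.dvd_apply_one_zero N γ
  have hN : (N : ℤ) ≠ 0 := by exact_mod_cast NeZero.ne N
  ext i j
  rw [Units.val_mul, Units.val_mul, Matrix.mul_apply, Matrix.mul_apply, Fin.sum_univ_two,
    Fin.sum_univ_two]
  simp only [HeckeCohom.gamma0GL_entry, val_frickeGL]
  fin_cases i <;> fin_cases j <;>
    simp [frickeConj, frickeConjSL, hk, Int.mul_ediv_cancel_left _ hN] <;> ring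

theorem frickeGL_conj_gamma0GL (γ : Gamma0 N) :
    frickeGL N * HeckeCohom.gamma0GL N γ * (frickeGL N)⁻¹ =
      HeckeCohom.gamma0GL N (frickeConj N γ) := by
  rw [mul_inv_eq_iff_eq_mul, frickeGL_mul_gamma0GL]

/-- `W β_i W⁻¹`. -/
def heckeAlpha (p : ℕ) (i : HeckeCohom.HeckeIdx N p) : GL (Fin 2) ℝ :=
  frickeGL N * HeckeCohom.heckeBeta N p i * (frickeGL N)⁻¹

theorem det_heckeAlpha_pos (p : ℕ) (i : HeckeCohom.HeckeIdx N p) :
    0 < (heckeAlpha N p i).val.det := by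
  rw [heckeAlpha, Units.val_mul, Units.val_mul, Matrix.det_units_conj]
  obtain ⟨_ | x, hi⟩ := i
  · simpa [HeckeCohom.heckeBeta] using det_heckeDiagMatrix_pos p
  · simpa [HeckeCohom.heckeBeta] using det_heckeMatrix_pos p x.val

theorem gamma0GL_smul (γ : Gamma0 N) (τ : ℍ) :
    HeckeCohom.gamma0GL N γ • τ = (γ : SL(2, ℤ)) • τ := rfl

theorem heckeDiagMatrix_smul_eq_scale (p : ℕ) [NeZero p] (τ : ℍ) :
    heckeDiagMatrix p • τ = HeckeJ.scale p τ :=
  UpperHalfPlane.ext (by rw [coe_heckeDiagMatrix_smul (NeZero.ne p), HeckeJ.coe_scale])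

theorem heckeDiagMatrix_mul_gamma0GL (p : ℕ) [NeZero p] (g : Gamma0 (N * p)) (h : Gamma0 N)
    (hg : (g : SL(2, ℤ)) = (h : SL(2, ℤ))) :
    heckeDiagMatrix p * HeckeCohom.gamma0GL N h =
      HeckeCohom.gamma0GL N (HeckeJ.conjScale p g) * heckeDiagMatrix p := by
  obtain ⟨k, hk⟩ := HeckeJ.dvd_lowerLeft p g
  have hp : (p : ℤ) ≠ 0 := by exact_mod_cast NeZero.ne p
  ext i j
  rw [Units.val_mul, Units.val_mul, Matrix.mul_apply, Matrix.mul_apply, Fin.sum_univ_two,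
    Fin.sum_univ_two]
  simp only [HeckeCohom.gamma0GL_entry, val_heckeDiagMatrix (NeZero.ne p), ← hg]
  fin_cases i <;> fin_cases j <;>
    simp [HeckeJ.conjScale, hk, Int.mul_ediv_cancel_left _ hp] <;> ring

theorem exists_diag_mul_eq (ℓ : Nat.Primes) (i : HeckeCohom.HeckeIdx N ℓ) :
    ∃ u s : Gamma0 N, HeckeCohom.gamma0GL N u * heckeAlpha N ℓ i =
      heckeDiagMatrix ℓ * HeckeCohom.gamma0GL N s := by
  have hp : (ℓ : ℕ) ≠ 0 := ℓ.2.ne_zero
  simp only [heckeAlpha, ← mul_assoc, mul_inv_eq_iff_eq_mul]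
  obtain ⟨_ | j, hi⟩ := i
  · have hcop : IsCoprime ((ℓ : ℕ) : ℤ) (N : ℤ) :=
      Int.isCoprime_iff_nat_coprime.mpr (by simpa using (ℓ.2.coprime_iff_not_dvd).mpr (hi rfl))
    obtain ⟨a, b, hab⟩ := hcop
    refine ⟨⟨⟨!![((ℓ : ℕ) : ℤ) * a, -b; (N : ℤ), 1], by
        rw [Matrix.det_fin_two_of]; linear_combination hab⟩, Gamma0_mem.mpr (by simp)⟩,
      ⟨⟨!![a, -b; (N : ℤ), ((ℓ : ℕ) : ℤ)], by
        rw [Matrix.det_fin_two_of]; linear_combination hab⟩, Gamma0_mem.mpr (by simp)⟩, ?_⟩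
    ext r c
    simp only [Units.val_mul, Matrix.mul_apply, Fin.sum_univ_two, HeckeCohom.gamma0GL_entry,
      val_frickeGL]
    fin_cases r <;> fin_cases c <;>
      simp [HeckeCohom.heckeBeta, hp] <;> ring
  · refine ⟨1, ⟨⟨!![1, 0; -((N : ℤ) * (j.val : ℤ)), 1], by
        rw [Matrix.det_fin_two_of]; ring⟩, Gamma0_mem.mpr (by simp)⟩, ?_⟩
    rw [map_one, one_mul]
    ext r c
    simp only [Units.val_mul, Matrix.mul_apply, Fin.sum_univ_two, HeckeCohom.gamma0GL_entry,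
      val_frickeGL]
    fin_cases r <;> fin_cases c <;>
      simp [HeckeCohom.heckeBeta, hp, -ZMod.natCast_val] <;> ring

omit [NeZero N] in
theorem card_heckeIdx (ℓ : Nat.Primes) [NeZero (ℓ : ℕ)] :
    Fintype.card (HeckeCohom.HeckeIdx N ℓ) = HeckeJ.levelIndex N ℓ := by
  have h := HeckeCohom.sum_heckeBeta N (ℓ : ℕ) fun _ => (1 : ℕ)
  simp only [Finset.sum_const, Finset.card_univ, Finset.card_range, smul_eq_mul, mul_one] at h
  rw [h, HeckeJ.levelIndex]
  split <;> simp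

/-- The product over the cosets of `τ ↦ F (ℓ τ)` is the product over the conjugated
representatives. -/
theorem cosetProd_scale_eq_prod (ℓ : Nat.Primes) [NeZero (ℓ : ℕ)] {F : ℍ → ℂ}
    (hF : ∀ γ ∈ Gamma0 N, ∀ τ, F (γ • τ) = F τ) (τ : ℍ) :
    HeckeJ.cosetProd N (N * ℓ) (fun z => F (HeckeJ.scale ℓ z)) τ =
      ∏ i, F (heckeAlpha N ℓ i • τ) := by
  have : Fact (ℓ : ℕ).Prime := ⟨ℓ.2⟩
  choose u s hus using exists_diag_mul_eq N ℓ
  have hinv : ∀ γ ∈ Gamma0 (N * ℓ), ∀ z, F (HeckeJ.scale ℓ (γ • z)) = F (HeckeJ.scale ℓ z) :=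
    fun γ hγ z => by rw [HeckeJ.scale_smul ℓ ⟨γ, hγ⟩ z]; exact hF _ (HeckeJ.conjScale ℓ _).2 _
  have hbij : Function.Bijective fun i =>
      (QuotientGroup.mk (s i)⁻¹ : HeckeJ.RelCoset N (N * ℓ)) := by
    refine (Fintype.bijective_iff_injective_and_card _).2 ⟨fun i k h => ?_, ?_⟩
    · rw [HeckeJ.relCoset_mk_eq_iff, Subgroup.coe_inv, Subgroup.coe_inv, inv_inv] at h
      refine (HeckeCohom.isCosetSystem N ℓ).eq_of_eq
        (frickeConj N ((u i)⁻¹ * HeckeJ.conjScale ℓ ⟨_, h⟩ * u k)) i k ?_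
      have hd := heckeDiagMatrix_mul_gamma0GL N (ℓ : ℕ) ⟨_, h⟩ (s i * (s k)⁻¹) rfl
      rw [map_mul, map_inv, ← mul_assoc, mul_inv_eq_iff_eq_mul, mul_assoc, ← hus i, ← hus k,
        ← mul_assoc (HeckeCohom.gamma0GL N (HeckeJ.conjScale (ℓ : ℕ) _)), ← map_mul,
        ← eq_inv_mul_iff_mul_eq, ← map_inv, ← mul_assoc, ← map_mul] at hd
      rw [← mul_left_cancel_iff (a := frickeGL N), ← mul_assoc, frickeGL_mul_gamma0GL,
        frickeConj_frickeConj, ← mul_right_cancel_iff (a := (frickeGL N)⁻¹)]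
      simpa only [heckeAlpha, mul_assoc] using hd
    · rw [HeckeJ.card_relCoset ℓ.2, card_heckeIdx]
  rw [HeckeJ.cosetProd_eq_prod hinv (fun i => (s i)⁻¹) hbij]
  refine Finset.prod_congr rfl fun i _ => ?_
  rw [Subgroup.coe_inv, inv_inv, ← heckeDiagMatrix_smul_eq_scale, ← gamma0GL_smul, ← mul_smul,
    ← hus i, mul_smul, gamma0GL_smul]
  exact hF _ (u i).2 _

variable {N}

/-- Moebius transformations with positive determinant as maps of punctured neighbourhoods. -/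
theorem tendsto_glSmul_nhdsNE {g : GL (Fin 2) ℝ} (hg : 0 < g.val.det) {z : ℂ} (hz : 0 < z.im) :
    Tendsto (fun w : ℂ => ((g • ofComplex w : ℍ) : ℂ)) (𝓝[≠] z)
      (𝓝[≠] ((g • ofComplex z : ℍ) : ℂ)) := by
  refine tendsto_nhdsWithin_of_tendsto_nhds_of_eventually_within _ ?_ ?_
  · have h : ContinuousAt (fun w : ℂ => ((g • ofComplex w : ℍ) : ℂ)) z := by
      simpa using (hasStrictDerivAt_smul hg (⟨z, hz⟩ : ℍ)).hasDerivAt.continuousAt
    exact h.tendsto.mono_left nhdsWithin_le_nhds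
  · filter_upwards [nhdsWithin_le_nhds (isOpen_upperHalfPlaneSet.mem_nhds hz),
      self_mem_nhdsWithin] with w hw hne h
    have := congrArg (fun τ : ℍ => g⁻¹ • τ) (UpperHalfPlane.ext h)
    simp only [inv_smul_smul] at this
    rw [ofComplex_apply_of_im_pos hw, ofComplex_apply_of_im_pos hz] at this
    exact hne (congrArg UpperHalfPlane.coe this)

theorem analyticAt_glSmul {g : GL (Fin 2) ℝ} (hg : 0 < g.val.det) {z : ℂ} (hz : 0 < z.im) :
    AnalyticAt ℂ (fun w : ℂ => ((g • ofComplex w : ℍ) : ℂ)) z := by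
  rw [Complex.analyticAt_iff_eventually_differentiableAt]
  filter_upwards [isOpen_upperHalfPlaneSet.mem_nhds hz] with w hw
  simpa [ofComplex_apply_of_im_pos hw] using
    (hasStrictDerivAt_smul hg (⟨w, hw⟩ : ℍ)).hasDerivAt.differentiableAt

end Fermat.Agent.Torsion
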