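/-
The character of `T_ℓ x` is the transform of the character of `x`.
-/
import Fermat.Agent.Torsion.CharC
import Fermat.Agent.Torsion.Fricke
import Fermat.Agent.Torsion.HeckeCosets
import Fermat.Agent.HeckeJ.Norm
import Fermat.Agent.HeckeCohom.Operators

set_option autoImplicit false

noncomputable section

namespace Fermat.Agent.Torsion

open AlgebraicCurve ModularCurve CongruenceSubgroup UpperHalfPlane Filter
open Multiplier (IsRoot IsEquivariant H)
open scoped MatrixGroups Topology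

variable {N : ℕ} [NeZero N] {n : ℕ} [NeZero n]

omit [NeZero N] in
theorem charUnits_val_prod {ι : Type*} (s : Finset ι) (φ : Additive (Gamma0 N) →+ ZMod n)
    (c : ι → Gamma0 N) :
    ∏ i ∈ s, (charUnits n φ (c i) : ℂ) = ZMod.stdAddChar (∑ i ∈ s, φ (Additive.ofMul (c i))) := by
  classical
  induction s using Finset.induction_on with
  | empty => simp
  | insert a t hat ih =>
    rw [Finset.prod_insert hat, Finset.sum_insert hat, AddChar.map_add_eq_mul, ih, coe_charUnits]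

/-- The product of `g` over the conjugated representatives. -/
def heckeRootProd (ℓ : Nat.Primes) [NeZero (ℓ : ℕ)] (g : ℂ → ℂ) : ℂ → ℂ :=
  (fun τ : ℍ => ∏ i, g (heckeAlpha N ℓ i • τ : ℍ)) ∘ ofComplex

theorem heckeRootProd_act {φ : Additive (Gamma0 N) →+ ZMod n} (ℓ : Nat.Primes) [NeZero (ℓ : ℕ)]
    {g : ℂ → ℂ} (hg : IsEquivariant (Gamma0 N) (charUnits n φ) g) :
    IsEquivariant (Gamma0 N)
      (charUnits n ((HeckeCohom.heckeHom N ℤ (ZMod n) ℓ
          (φ.comp (MonoidHom.toAdditive (frickeConj N)))).comp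
        (MonoidHom.toAdditive (frickeConj N))))
      (heckeRootProd (N := N) ℓ g) := by
  have : Fact (ℓ : ℕ).Prime := ⟨ℓ.2⟩
  intro γ z hz
  set hs := HeckeCohom.isCosetSystem N (ℓ : ℕ)
  set δ := frickeConj N γ
  -- moving `γ` through the representatives
  have hmove : ∀ i, heckeAlpha N ℓ i * HeckeCohom.gamma0GL N γ =
      HeckeCohom.gamma0GL N (frickeConj N (hs.cocycle δ i)) * heckeAlpha N ℓ (hs.perm δ i) := by
    intro i
    have hγ : HeckeCohom.gamma0GL N γ =
        frickeGL N * HeckeCohom.gamma0GL N δ * (frickeGL N)⁻¹ := by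
      rw [frickeGL_conj_gamma0GL, frickeConj_frickeConj]
    calc heckeAlpha N ℓ i * HeckeCohom.gamma0GL N γ
        = frickeGL N * (HeckeCohom.heckeBeta N ℓ i * HeckeCohom.gamma0GL N δ) * (frickeGL N)⁻¹ := by
          rw [heckeAlpha, hγ]; group
      _ = frickeGL N * (HeckeCohom.gamma0GL N (hs.cocycle δ i) *
            HeckeCohom.heckeBeta N ℓ (hs.perm δ i)) * (frickeGL N)⁻¹ := by rw [hs.spec]
      _ = (frickeGL N * HeckeCohom.gamma0GL N (hs.cocycle δ i) * (frickeGL N)⁻¹) *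
            heckeAlpha N ℓ (hs.perm δ i) := by rw [heckeAlpha]; group
      _ = _ := by rw [frickeGL_conj_gamma0GL]
  simp only [heckeRootProd, Function.comp_apply]
  rw [Multiplier.ofComplex_act _ hz, ← gamma0GL_smul]
  set τ := ofComplex z
  have hterm : ∀ i, g (heckeAlpha N ℓ i • HeckeCohom.gamma0GL N γ • τ : ℍ) =
      (charUnits n φ (frickeConj N (hs.cocycle δ i)) : ℂ) *
        g (heckeAlpha N ℓ (hs.perm δ i) • τ : ℍ) := fun i => by
    rw [smul_smul, hmove, mul_smul, gamma0GL_smul, Multiplier.coe_smul_eq_act]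
    exact hg _ _ (UpperHalfPlane.coe_im_pos _)
  simp only [hterm]
  rw [Finset.prod_mul_distrib, charUnits_val_prod]
  refine congrArg₂ (· * ·) ?_ (Equiv.prod_comp (hs.permEquiv δ)
    fun i => g (heckeAlpha N ℓ i • τ : ℍ))
  rfl

theorem meromorphicOn_heckeRootProd (ℓ : Nat.Primes) [NeZero (ℓ : ℕ)] {g : ℂ → ℂ}
    (hg : MeromorphicOn g H) : MeromorphicOn (heckeRootProd (N := N) ℓ g) H := fun z hz => by
  refine MeromorphicAt.congr (f := fun w => ∏ i, g (heckeAlpha N ℓ i • ofComplex w : ℍ))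
    (MeromorphicAt.fun_prod fun i _ => ?_) EventuallyEq.rfl
  exact MeromorphicAt.comp_analyticAt (g := fun w : ℂ => ((heckeAlpha N ℓ i • ofComplex w : ℍ) : ℂ))
    (x := z) (hg _ (UpperHalfPlane.coe_im_pos (heckeAlpha N ℓ i • ofComplex z)))
    (analyticAt_glSmul (det_heckeAlpha_pos N ℓ i) hz)

omit [NeZero n] in
theorem heckeRootProd_pow (ℓ : Nat.Primes) [NeZero (ℓ : ℕ)] {f : modularFunctionFieldBar N}
    {g : ℂ → ℂ} (hg : IsRoot n (evBar f) g) {z : ℂ} (hz : z ∈ H) :
    heckeRootProd (N := N) ℓ g ^ n =ᶠ[𝓝[≠] z]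
      evBar (HeckeJ.heckeFun (AlgebraicClosure ℚ) N ℓ f) := by
  have hinv : ∀ γ ∈ Gamma0 N, ∀ τ,
      ModFun.toFun (ModFun.barToC N qbarToC f) (γ • τ) =
        ModFun.toFun (ModFun.barToC N qbarToC f) τ :=
    (ModFun.isModularFun_toFun _).smul_eq
  have h1 : ∀ i, ∀ᶠ w in 𝓝[≠] z,
      g (heckeAlpha N ℓ i • ofComplex w : ℍ) ^ n =
        ModFun.toFun (ModFun.barToC N qbarToC f) (heckeAlpha N ℓ i • ofComplex w) := fun i => by
    have h := (tendsto_glSmul_nhdsNE (det_heckeAlpha_pos N ℓ i) hz).eventually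
      (hg.pow_eq _ (UpperHalfPlane.coe_im_pos (heckeAlpha N ℓ i • ofComplex z)))
    filter_upwards [h] with w hw
    simpa [evBar] using hw
  filter_upwards [eventually_all.2 h1,
    HeckeJ.barFun_heckeFun qbarToC ℓ.2 f ⟨z, hz⟩] with w hw hw'
  simp only [evBar, HeckeJ.barFun, Pi.pow_apply, Function.comp_apply, heckeRootProd] at hw' ⊢
  rw [hw', cosetProd_scale_eq_prod N ℓ hinv, ← Finset.prod_pow]
  exact Finset.prod_congr rfl fun i _ => hw i

/-- The Hecke correspondence `α_* ∘ β^*` transforms characters by the Fricke conjugate of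
`heckeHom`. -/
theorem isTorsionChar_heckeOperatorBar (ℓ : Nat.Primes) {x : JZero N}
    {φ : Additive (Gamma0 N) →+ ZMod n} (h : IsTorsionChar n x φ) :
    IsTorsionChar n (heckeOperatorBar N ℓ x)
      ((HeckeCohom.heckeHom N ℤ (ZMod n) ℓ
          (φ.comp (MonoidHom.toAdditive (frickeConj N)))).comp
        (MonoidHom.toAdditive (frickeConj N))) := by
  have : NeZero (ℓ : ℕ) := ⟨ℓ.2.ne_zero⟩
  obtain ⟨D, f, g, rfl, hf, hD, hg, he⟩ := h
  set f' := HeckeJ.heckeFun (AlgebraicClosure ℚ) N ℓ f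
  have hf' : f' ≠ 0 := HeckeJ.heckeFun_ne_zero _ _ _ hf
  have hev : ∀ z ∈ H, meromorphicOrderAt (evBar f') z ≠ ⊤ := fun z hz =>
    ModFun.ordH_toFun_ne_top (x := ModFun.barToC N qbarToC f') (fun h0 =>
      hf' (ModFun.barToC_injective N qbarToC (h0.trans (map_zero _).symm))) ⟨z, hz⟩
  obtain ⟨hroot, heq⟩ := isRoot_toMeromorphicNFOn (NeZero.pos n)
    (meromorphicOn_heckeRootProd ℓ hg.meromorphicNFOn.meromorphicOn)
    (fun z hz => heckeRootProd_pow ℓ hg hz) hev
  obtain ⟨χ, -, hχ⟩ := hroot.exists_multiplier (NeZero.pos n) (Γ := Gamma0 N) fun γ hγ z _ =>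
    eventually_of_mem (U := H) (by
      exact nhdsWithin_le_nhds (Multiplier.isOpen_H.mem_nhds (by assumption))) fun w hw => by
      simp only [Function.comp_apply, evBar_eq]
      exact evC_act _ ⟨γ, hγ⟩ hw
  have hχ' : χ = charUnits n ((HeckeCohom.heckeHom N ℤ (ZMod n) ℓ
          (φ.comp (MonoidHom.toAdditive (frickeConj N)))).comp
        (MonoidHom.toAdditive (frickeConj N))) :=
    multiplier_eq_of_eventuallyEq hroot hχ heq fun γ => by
      filter_upwards [nhdsWithin_le_nhds (Multiplier.isOpen_H.mem_nhds Multiplier.I_mem_H)] with w hw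
      exact heckeRootProd_act ℓ he γ w hw
  refine ⟨⟨_, HeckeJ.heckeDiv_mem_degZero (AlgebraicClosure ℚ) N ℓ D.2⟩, f', _,
    (HeckeJ.heckeOperatorBar_mk N ℓ D).symm, hf', HeckeJ.mul_heckeDiv_apply _ _ _ hf n hD, hroot,
    hχ' ▸ hχ⟩

end Fermat.Agent.Torsion
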