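/-
`J₀(N)[n] ≅ H¹_par(Γ₀(N), ℤ/n)`, compatibly with the Hecke operators, and consequences.
-/
import Fermat.Agent.Torsion.CharProps
import Fermat.Agent.Torsion.HeckeChar
import Fermat.Agent.HeckeCohom.Faithful
import Fermat.Agent.ParHom.Gamma0
import Fermat.Prelude.Def_CuspForm_HeckeAlgebra

set_option autoImplicit false

noncomputable section

namespace Fermat.Agent.Torsion

open AlgebraicCurve ModularCurve CongruenceSubgroup
open scoped MatrixGroups

variable (N : ℕ) [NeZero N]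

/-- `T_ℓ` or `U_ℓ` on `H¹_par(Γ₀(N), ℤ/n)`. -/
abbrev heckeChar (n : ℕ) (ℓ : Nat.Primes) : Module.End ℤ (CharMod N n) :=
  HeckeCohom.heckeParEll N ℤ (ZMod n) ℓ

/-- Composition with the Fricke conjugation. -/
def frickeChar (n : ℕ) : CharMod N n ≃+ CharMod N n where
  toFun φ := ⟨(φ : Additive (Gamma0 N) →+ ZMod n).comp (MonoidHom.toAdditive (frickeConj N)),
    ParHom.mem_parEllHoms.2 (isParEllHom_comp_frickeConj φ.2)⟩
  invFun φ := ⟨(φ : Additive (Gamma0 N) →+ ZMod n).comp (MonoidHom.toAdditive (frickeConj N)),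
    ParHom.mem_parEllHoms.2 (isParEllHom_comp_frickeConj φ.2)⟩
  left_inv φ := Subtype.ext (AddMonoidHom.ext fun a =>
    congrArg (φ : Additive (Gamma0 N) →+ ZMod n)
      (congrArg Additive.ofMul (frickeConj_frickeConj (Additive.toMul a))))
  right_inv φ := Subtype.ext (AddMonoidHom.ext fun a =>
    congrArg (φ : Additive (Gamma0 N) →+ ZMod n)
      (congrArg Additive.ofMul (frickeConj_frickeConj (Additive.toMul a))))
  map_add' _ _ := rfl

theorem frickeChar_comp_frickeConj (n : ℕ) (φ : CharMod N n) :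
    ((frickeChar N n φ : CharMod N n) : Additive (Gamma0 N) →+ ZMod n).comp
        (MonoidHom.toAdditive (frickeConj N))
      = (φ : Additive (Gamma0 N) →+ ZMod n) :=
  congrArg Subtype.val ((frickeChar N n).symm_apply_apply φ)

/-- The class with a given character. -/
theorem exists_classOfChar (n : ℕ) [NeZero n] (φ : CharMod N n) :
    ∃ x : jTorsion N n, IsTorsionChar n (x : JZero N)
      ((φ : Additive (Gamma0 N) →+ ZMod n).comp (MonoidHom.toAdditive (frickeConj N))) := by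
  obtain ⟨x, hx, hx'⟩ :=
    exists_isTorsionChar_of_isParEllHom (frickeChar N n φ).2
  exact ⟨⟨x, hx⟩, hx'⟩

/-- The class attached to `φ`. -/
def classOfChar (n : ℕ) [NeZero n] (φ : CharMod N n) : jTorsion N n :=
  (exists_classOfChar N n φ).choose

theorem classOfChar_spec (n : ℕ) [NeZero n] (φ : CharMod N n) :
    IsTorsionChar n (classOfChar N n φ : JZero N)
      ((φ : Additive (Gamma0 N) →+ ZMod n).comp (MonoidHom.toAdditive (frickeConj N))) :=
  (exists_classOfChar N n φ).choose_spec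

theorem classOfChar_add (n : ℕ) [NeZero n] (φ ψ : CharMod N n) :
    classOfChar N n (φ + ψ) = classOfChar N n φ + classOfChar N n ψ := by
  have h := (classOfChar_spec N n φ).add (classOfChar_spec N n ψ)
  have e : ((φ + ψ : CharMod N n) : Additive (Gamma0 N) →+ ZMod n).comp
      (MonoidHom.toAdditive (frickeConj N))
      = (φ : Additive (Gamma0 N) →+ ZMod n).comp (MonoidHom.toAdditive (frickeConj N))
        + (ψ : Additive (Gamma0 N) →+ ZMod n).comp (MonoidHom.toAdditive (frickeConj N)) := by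
    rw [Submodule.coe_add, AddMonoidHom.add_comp]
  rw [← e] at h
  refine Subtype.ext ?_
  rw [AddSubgroup.coe_add]
  exact (classOfChar_spec N n (φ + ψ)).congr_unique h

theorem classOfChar_bijective (n : ℕ) [NeZero n] : Function.Bijective (classOfChar N n) := by
  refine ⟨fun φ ψ h => (frickeChar N n).injective (Subtype.ext ?_), fun x => ?_⟩
  · have h2 := classOfChar_spec N n ψ
    rw [← h] at h2
    exact (classOfChar_spec N n φ).unique h2
  · obtain ⟨φ, hφ⟩ := exists_isTorsionChar x.2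
    refine ⟨frickeChar N n ⟨φ, ParHom.mem_parEllHoms.2 hφ.isParEllHom⟩, Subtype.ext ?_⟩
    have h := classOfChar_spec N n (frickeChar N n ⟨φ, ParHom.mem_parEllHoms.2 hφ.isParEllHom⟩)
    rw [frickeChar_comp_frickeConj] at h
    exact h.congr_unique hφ

/-- `classOfChar` as an isomorphism. -/
def classEquiv (n : ℕ) [NeZero n] : CharMod N n ≃+ jTorsion N n :=
  AddEquiv.ofBijective (AddMonoidHom.mk' (classOfChar N n) (classOfChar_add N n))
    (classOfChar_bijective N n)

theorem classEquiv_spec (n : ℕ) [NeZero n] (φ : CharMod N n) :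
    IsTorsionChar n (classEquiv N n φ : JZero N)
      ((φ : Additive (Gamma0 N) →+ ZMod n).comp (MonoidHom.toAdditive (frickeConj N))) :=
  classOfChar_spec N n φ

theorem classEquiv_hecke (n : ℕ) [NeZero n] (ℓ : Nat.Primes) (φ : CharMod N n) :
    heckeOperatorBar N ℓ (classEquiv N n φ : JZero N)
      = (classEquiv N n (heckeChar N n ℓ φ) : JZero N) := by
  have h := isTorsionChar_heckeOperatorBar ℓ (classEquiv_spec N n φ)
  have e : ((φ : Additive (Gamma0 N) →+ ZMod n).comp (MonoidHom.toAdditive (frickeConj N))).comp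
      (MonoidHom.toAdditive (frickeConj N)) = (φ : Additive (Gamma0 N) →+ ZMod n) :=
    frickeChar_comp_frickeConj N n φ
  rw [e, ← HeckeCohom.coe_heckeParEll_apply] at h
  exact h.congr_unique (classEquiv_spec N n (heckeChar N n ℓ φ))

theorem classEquiv_nsmul (n m : ℕ) [NeZero n] [NeZero m] [NeZero (n * m)]
    (φ : CharMod N (n * m)) (ψ : CharMod N n)
    (h : (ψ : Additive (Gamma0 N) →+ ZMod n)
      = (ZMod.castHom (dvd_mul_right n m) (ZMod n)).toAddMonoidHom.comp
        (φ : Additive (Gamma0 N) →+ ZMod (n * m))) :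
    m • (classEquiv N (n * m) φ : JZero N) = (classEquiv N n ψ : JZero N) := by
  have h1 := (classEquiv_spec N (n * m) φ).nsmul_level m
  rw [← AddMonoidHom.comp_assoc, ← h] at h1
  exact h1.congr_unique (classEquiv_spec N n ψ)

/-- The identifications `H¹_par(Γ₀(N), ℤ/n) ≅ J₀(N)[n]`: the class attached to `φ` has character
`φ ∘ W`, they carry the Hecke operators to `heckeOperatorBar`, and they are compatible when `n`
varies. -/
theorem exists_torsionEquiv :
    ∃ e : ∀ (n : ℕ) [NeZero n], CharMod N n ≃+ jTorsion N n,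
      (∀ (n : ℕ) [NeZero n] (φ : CharMod N n),
        IsTorsionChar n (e n φ : JZero N)
          ((φ : Additive (Gamma0 N) →+ ZMod n).comp (MonoidHom.toAdditive (frickeConj N)))) ∧
      (∀ (n : ℕ) [NeZero n] (ℓ : Nat.Primes) (φ : CharMod N n),
        heckeOperatorBar N ℓ (e n φ : JZero N) = (e n (heckeChar N n ℓ φ) : JZero N)) ∧
      ∀ (n m : ℕ) [NeZero n] [NeZero m] [NeZero (n * m)] (φ : CharMod N (n * m))
        (ψ : CharMod N n),
        (ψ : Additive (Gamma0 N) →+ ZMod n)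
            = (ZMod.castHom (dvd_mul_right n m) (ZMod n)).toAddMonoidHom.comp
              (φ : Additive (Gamma0 N) →+ ZMod (n * m)) →
          m • (e (n * m) φ : JZero N) = (e n ψ : JZero N) := by
  exact ⟨fun n _ => classEquiv N n, fun n _ φ => classEquiv_spec N n φ,
    fun n _ ℓ φ => classEquiv_hecke N n ℓ φ,
    fun n m _ _ _ φ ψ h => classEquiv_nsmul N n m φ ψ h⟩

/-- The chosen identification `H¹_par(Γ₀(N), ℤ/n) ≅ J₀(N)[n]`. -/
def torsionEquiv (n : ℕ) [NeZero n] : CharMod N n ≃+ jTorsion N n :=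
  (exists_torsionEquiv N).choose n

theorem isTorsionChar_torsionEquiv (n : ℕ) [NeZero n] (φ : CharMod N n) :
    IsTorsionChar n (torsionEquiv N n φ : JZero N)
      ((φ : Additive (Gamma0 N) →+ ZMod n).comp (MonoidHom.toAdditive (frickeConj N))) :=
  (exists_torsionEquiv N).choose_spec.1 n φ

theorem heckeOperatorBar_torsionEquiv (n : ℕ) [NeZero n] (ℓ : Nat.Primes) (φ : CharMod N n) :
    heckeOperatorBar N ℓ (torsionEquiv N n φ : JZero N)
      = (torsionEquiv N n (heckeChar N n ℓ φ) : JZero N) :=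
  (exists_torsionEquiv N).choose_spec.2.1 n ℓ φ

theorem nsmul_torsionEquiv (n m : ℕ) [NeZero n] [NeZero m] [NeZero (n * m)]
    (φ : CharMod N (n * m)) (ψ : CharMod N n)
    (h : (ψ : Additive (Gamma0 N) →+ ZMod n)
      = (ZMod.castHom (dvd_mul_right n m) (ZMod n)).toAddMonoidHom.comp
        (φ : Additive (Gamma0 N) →+ ZMod (n * m))) :
    m • (torsionEquiv N (n * m) φ : JZero N) = (torsionEquiv N n ψ : JZero N) :=
  (exists_torsionEquiv N).choose_spec.2.2 n m φ ψ h

/-- Coordinates: `(ℤ/n)^{2g} ≅ J₀(N)[n]`. -/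
def torsionCoord (n : ℕ) [NeZero n] :
    (Fin (ParHom.parRank (Gamma0 N)) → ZMod n) ≃+ jTorsion N n :=
  (ParHom.parEquiv (ParHom.neg_one_mem_Gamma0 N) ℤ (ZMod n)).toAddEquiv.symm.trans
    (torsionEquiv N n)

theorem natCard_jTorsion (n : ℕ) [NeZero n] :
    Nat.card (jTorsion N n) = n ^ ParHom.parRank (Gamma0 N) := by
  rw [← Nat.card_congr (torsionCoord N n).toEquiv, Nat.card_fun, Nat.card_zmod, Nat.card_fin]

theorem exists_natCard_jTorsion :
    ∃ g : ℕ, (g : ℚ) = genusFormula N ∧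
      ∀ n : ℕ, n ≠ 0 → Nat.card (jTorsion N n) = n ^ (2 * g) := by
  have h := ParHom.parRank_Gamma0 N
  have h2 := DimLower.finrank_cuspForm_two_eq_genusFormula N
  refine ⟨Module.finrank ℂ (CuspForm (Gamma0 N) 2), h2, fun n hn => ?_⟩
  haveI : NeZero n := ⟨hn⟩
  rw [natCard_jTorsion]
  congr 1
  rw [← h2] at h
  exact_mod_cast h

instance finite_jTorsion (n : ℕ) [NeZero n] : Finite (jTorsion N n) :=
  Finite.of_equiv _ (torsionCoord N n).toEquiv

/-- The Hecke operators commute on torsion. -/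
theorem heckeOperatorBar_comm_torsion (n : ℕ) [NeZero n] (ℓ ℓ' : Nat.Primes) {x : JZero N}
    (hx : n • x = 0) :
    heckeOperatorBar N ℓ (heckeOperatorBar N ℓ' x)
      = heckeOperatorBar N ℓ' (heckeOperatorBar N ℓ x) := by
  obtain ⟨φ, hφ⟩ := (torsionEquiv N n).surjective ⟨x, mem_jTorsion.2 hx⟩
  obtain rfl : (torsionEquiv N n φ : JZero N) = x := by rw [hφ]
  rw [heckeOperatorBar_torsionEquiv, heckeOperatorBar_torsionEquiv, heckeOperatorBar_torsionEquiv,
    heckeOperatorBar_torsionEquiv]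
  have h : heckeChar N n ℓ (heckeChar N n ℓ' φ) = heckeChar N n ℓ' (heckeChar N n ℓ φ) :=
    LinearMap.congr_fun (HeckeCohom.heckeParEll_commute N ℤ (ZMod n) ℓ ℓ') φ
  rw [h]

/-- The action of the Hecke algebra on `J₀(N)[n]`, transported from `H¹_par(Γ₀(N), ℤ/n)`. -/
def heckeRep (n : ℕ) [NeZero n] :
    CuspForm.heckeAlgebra N 2 (∅ : Set ℕ) →+* AddMonoid.End (jTorsion N n) where
  toFun t := ((torsionEquiv N n).toAddMonoidHom.comp
    (HeckeCohom.heckeAct N ℤ (ZMod n) t).toAddMonoidHom).comp (torsionEquiv N n).symm.toAddMonoidHom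
  map_one' := DFunLike.ext _ _ fun x => by
    rw [map_one]
    exact (torsionEquiv N n).apply_symm_apply x
  map_mul' t s := DFunLike.ext _ _ fun x => by
    rw [map_mul]
    exact congrArg (fun y => torsionEquiv N n (HeckeCohom.heckeAct N ℤ (ZMod n) t y))
      ((torsionEquiv N n).symm_apply_apply _).symm
  map_zero' := DFunLike.ext _ _ fun x => by
    rw [map_zero]
    exact map_zero (torsionEquiv N n)
  map_add' t s := DFunLike.ext _ _ fun x => by
    rw [map_add]
    exact map_add (torsionEquiv N n) _ _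

theorem heckeRep_torsionEquiv (n : ℕ) [NeZero n] (t : CuspForm.heckeAlgebra N 2 (∅ : Set ℕ))
    (φ : CharMod N n) :
    heckeRep N n t (torsionEquiv N n φ) = torsionEquiv N n (HeckeCohom.heckeAct N ℤ (ZMod n) t φ) :=
  congrArg (fun y => torsionEquiv N n (HeckeCohom.heckeAct N ℤ (ZMod n) t y))
    ((torsionEquiv N n).symm_apply_apply φ)

theorem heckeRep_eq_heckeTors (n : ℕ) [NeZero n] {t : CuspForm.heckeAlgebra N 2 (∅ : Set ℕ)}
    {ℓ : Nat.Primes} (h : HeckeCohom.heckeAct N ℤ (ZMod n) t = heckeChar N n ℓ) :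
    heckeRep N n t = heckeTors N n ℓ := by
  refine DFunLike.ext _ _ fun x => ?_
  obtain ⟨φ, rfl⟩ := (torsionEquiv N n).surjective x
  refine Subtype.ext ?_
  rw [heckeRep_torsionEquiv, coe_heckeTors, h, heckeOperatorBar_torsionEquiv]

theorem heckeRep_T (n : ℕ) [NeZero n] {ℓ : ℕ} (hℓ : ℓ.Prime) (hℓN : ¬ ℓ ∣ N) :
    heckeRep N n (CuspForm.heckeAlgebra.T hℓ hℓN (Set.notMem_empty _))
      = heckeTors N n ⟨ℓ, hℓ⟩ :=
  heckeRep_eq_heckeTors N n (HeckeCohom.heckeAct_T ℤ (ZMod n) hℓ hℓN _)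

theorem heckeRep_U (n : ℕ) [NeZero n] {q : ℕ} (hq : q.Prime) (hqN : q ∣ N) :
    heckeRep N n (CuspForm.heckeAlgebra.U hq hqN (Set.notMem_empty _))
      = heckeTors N n ⟨q, hq⟩ :=
  heckeRep_eq_heckeTors N n (HeckeCohom.heckeAct_U ℤ (ZMod n) hq hqN _)

/-- For a maximal ideal `𝔪` of residue characteristic `p`, the `𝔪`-torsion of `J₀(N)[p]` is
non-zero. -/
theorem exists_ne_zero_forall_heckeRep_eq_zero {p : ℕ} [Fact p.Prime]
    (𝔪 : Ideal (CuspForm.heckeAlgebra N 2 (∅ : Set ℕ))) (h𝔪 : 𝔪.IsMaximal)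
    (hp : (p : CuspForm.heckeAlgebra N 2 (∅ : Set ℕ)) ∈ 𝔪) :
    ∃ x : jTorsion N p, x ≠ 0 ∧
      ∀ t ∈ 𝔪, (haveI : NeZero p := ⟨(Fact.out : p.Prime).ne_zero⟩; heckeRep N p t x) = 0 := by
  haveI : NeZero p := ⟨(Fact.out : p.Prime).ne_zero⟩
  haveI := h𝔪
  obtain ⟨φ, hφ, hφt⟩ := HeckeCohom.exists_ne_zero_killed (p := p) 𝔪 hp
  refine ⟨torsionEquiv N p φ, fun h => hφ ?_, fun t ht => ?_⟩
  · exact (torsionEquiv N p).map_eq_zero_iff.1 h
  · rw [heckeRep_torsionEquiv, hφt t ht, map_zero]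

end Fermat.Agent.Torsion
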